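import Fermat.Agent.RT.Main.System
import Fermat.Agent.RT.Tate.ChainEnd

/-!
# The curve is modular of the raised level

The Tate module is a point of the deformation ring of the base level, so the system of the stages
makes the curve modular of the level `N₀ ∏_Loc q`.
-/

set_option autoImplicit false
set_option linter.unusedSectionVars false

noncomputable section

open IsLocalRing Matrix Polynomial WeierstrassCurve FLTAgent.Deformation FLTAgent.GalRep

namespace FLTAgent.RT.Main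

attribute [local instance] dualAlg

variable {𝒪 : Type} [CommRing 𝒪] [IsDomain 𝒪] [IsDiscreteValuationRing 𝒪]
  [IsAdicComplete (maximalIdeal 𝒪) 𝒪] [Finite (ResidueField 𝒪)] [CharZero 𝒪]
  {W : WeierstrassCurve ℤ} {p : ℕ} [Fact p.Prime] {loc : PCond} {aux : Finset ℕ}
  {F : Frame 𝒪 W p loc aux} {N₀ : ℕ} [NeZero N₀]
  {Pl : F.Places} {κ : Type} [Finite κ] {u : F.Extra κ} {g r : ℕ}

/-- **Modularity from a family of stages.** -/
theorem isModularModelOfLevel_of_stages (hB : Base F N₀) (hI : Inputs F N₀) (ψ : ℤ_[p] →+* 𝒪)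
    (hTate : ∀ (c : (Mat 𝒪)ˣ) (hN : MatCont (conjRep c (Tate.tateO F.disc_ne p ψ))),
      problem 𝒪 p loc (badSet W p) (badSet W p)
        (matRep (conjRep c (Tate.tateO F.disc_ne p ψ)) hN))
    (St : ∀ n, Stage F Pl u g r n)
    (hr : Nat.card ((Σ i, Fin (Pl.Ds i).h0) ⊕ (κ ⊕ Fin g)) ≤ r) :
    W.IsModularModelOfLevel (Sys.baseN N₀ F.qLoc Finset.univ) := by
  have : ∀ n, Fact (Odd (Nat.card (TWGrp p r n))) := fact_odd_twGrp F.ne_two
  set N := Sys.baseN N₀ F.qLoc Finset.univ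
  have : NeZero N := Sys.neZero_baseN (N₀ := N₀) F.prime_qLoc Finset.univ
  obtain ⟨D₀⟩ := F.nonempty_defData (S := badSet W p) subset_rfl
  obtain ⟨M₀, hM₀, -, he₀⟩ := exists_isLift_of_residual_isEquiv (isCoeff_deformationRing D₀) D₀.ρ
    (fun _ => rfl) D₀.residual_isEquiv
  have hp_mem : p ∈ excSet W p aux := Finset.mem_union_left _ (Finset.mem_insert_self _ _)
  have : Nontrivial (cohPart trivChar (one_dvd N)
      (prime_famPrime (W := W) (p := p) (aux := aux)) (famCoeff 𝒪)) :=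
    Submodule.nontrivial_iff_ne_bot.mpr (basePart_ne_bot F hB Finset.univ)
  have hsqN : Squarefree N := squarefree_baseN F hB Finset.univ
  have hsq2 : ∀ q : ℕ, q.Prime → ¬ q ^ 2 ∣ N := fun q hq h =>
    hq.not_isUnit (hsqN q (by rwa [← pow_two]))
  obtain ⟨Θ, φP, hφP, -, hΘ, hΘT⟩ := exists_act F hI (χ := trivChar) (one_dvd N) F.nonEis
    squarefree_one (fun q hq h => absurd (Nat.dvd_one.mp h) hq.ne_one) (mul_one N).symm
    F.minS_subset D₀ (fun q hq h => mem_excSet_of_dvd_baseN F hB hq h)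
    (p_dvd_baseN_iff F hB Finset.univ) (hsq2 p Fact.out)
    (fun q hq _ => hsq2 q (Frame.prime_of_mem_badSet hq)) fun _ _ => rfl
  have hmap : ∀ n, ∃ f : (St n).D.R →ₐ[𝒪] D₀.R, Function.Surjective f ∧
      (∀ σ, f ((St n).D.ρ.trace σ) = D₀.ρ.trace σ) ∧
      ∃ w : (Mat D₀.R)ˣ, mapRep (f : (St n).D.R →+* D₀.R) (St n).M = conjRep w M₀ := fun n =>
    Tate.exists_mapToBase (F.type.isCond _ _) (St n).D D₀
      ⟨⟨D₀.isOfType.1.1, D₀.isOfType.1.2.1, fun q hq hqS => D₀.isOfType.1.2.2 q hq fun h =>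
        hqS (Finset.mem_union_left _ h)⟩, D₀.isOfType.2⟩ (St n).equiv he₀
  choose f hf hftr hfM using hmap
  refine Tate.isModularModelOfLevel_of_system F.disc_ne p ψ F.mem_p F.semistable F.ne_two Pl.Ds
    F.qLoc (fun i => ⟨(F.loc_spec i).1, (F.loc_spec i).2.2.2.1, (F.loc_spec i).2.2.2.2.1,
      Pl.q_eq i⟩) Pl.P Pl.liesOver Pl.φ Pl.frob (system hB hI St) (isUnit_two F.mem_p F.ne_two) hr
    (rank_pos F hB ∅) (resHom F.mem_p) hTate D₀ he₀
    (Sys.baseMat (F.e₀ N₀ Finset.univ) φP) (fun n => (St n).D.R)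
    (fun n => isCoeff_deformationRing (St n).D) (fun n => (St n).M) (fun n => (St n).C)
    (fun n => (St n).γ) (fun n => (St n).surj) (fun n => (St n).γ_coord) f hf hfM (fun n j => ?_)
    (fun n x => system_act_augT hB hI St n Finset.univ φP hφP (f n) (hftr n) x)
    (N := N) (S := excSet W p aux) (fun q hq h => mem_excSet_of_dvd_baseN F hB hq h)
    (fun q hq hqS => F.good_of_notMem hq fun h => hqS (Finset.mem_union_left _ h)) Θ φP
    (fun a ha => Sys.baseMat_eq_zero _ _ ha) hΘ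
    fun ℓ hℓ hℓN hℓS B hB' σ hσ => by
      rw [trace_of_isEquiv he₀]
      exact hΘT ℓ hℓ hℓN hℓS B hB' σ hσ
  obtain ⟨P, τ, hP, hτ, he⟩ := exists_system_dia hB hI St n Finset.univ j
  exact ⟨(St n).qv j, P, τ, (St n).qv_prime j, (St n).qv_ne_p j, hP, hτ, he⟩

end FLTAgent.RT.Main
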