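import Fermat.Agent.RT.Tate.OverO
import Fermat.Agent.RT.Setting.Residual
import Fermat.Agent.Deformation.DefIdeal
import Fermat.Agent.Deformation.Export

/-!
# The residual representation satisfies the problems of the Tate module

A deformation condition satisfied by the conjugates of the Tate module holds for `E[p]`.
-/

set_option autoImplicit false
set_option linter.unusedSectionVars false

noncomputable section

open IsLocalRing Matrix WeierstrassCurve FLTAgent.Deformation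

namespace FLTAgent.RT.Main

variable {𝒪 : Type} [CommRing 𝒪] [IsDomain 𝒪] [IsDiscreteValuationRing 𝒪]
  [IsAdicComplete (maximalIdeal 𝒪) 𝒪] [Finite (ResidueField 𝒪)]

/-- A lift satisfying a deformation condition forces it on the residual representation. -/
theorem cond_ofResidual {ρbar : ResidualGaloisRep (ResidueField 𝒪)}
    {𝒟 : ∀ ⦃A : Type⦄ [CommRing A] [IsLocalRing A] [Algebra 𝒪 A], GaloisRepAdic A → Prop}
    (h𝒟 : GaloisRep.IsDeformationCondition 𝒪 𝒟) {A : Type} [CommRing A] [IsLocalRing A]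
    [IsNoetherianRing A] [IsAdicComplete (maximalIdeal A) A] [Algebra 𝒪 A] (hA : IsCoeff 𝒪 A)
    {N : Gal →* Mat A} (hN : MatCont N) (hl : IsLift ρbar hA N) (hD : 𝒟 (matRep N hN)) :
    𝒟 (GaloisRepAdic.ofResidualGaloisRep ρbar) := by
  have hk : GaloisRep.IsArtinianTestAlgebra 𝒪 (ResidueField 𝒪) :=
    isCoeff_residueField.isArtinianTestAlgebra
  have hloc := hA.isLocalHom_algHom hk.isCoeff hA.toK
  have h1 := cond_baseChangeAlong_of_complete h𝒟 hA hk hA.toK hloc hD
  have hB : MatCont (barMatrix ρbar) :=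
    matCont_repMatrix (GaloisRepAdic.ofResidualGaloisRep ρbar) (residualBasis ρbar)
  have h2 := h𝒟.of_isEquiv hk
    (baseChangeAlong_isEquiv_matRep _ hloc (⟨GaloisRepAdic.Equiv.refl _⟩ :
      (matRep N hN).IsEquiv (matRep N hN))) h1
  have h3 : 𝒟 (matRep (barMatrix ρbar) hB) := cond_congr h𝒟 hk hl h2
  exact h𝒟.of_isEquiv hk
    (isEquiv_symm (isEquiv_matRep (GaloisRepAdic.ofResidualGaloisRep ρbar) (residualBasis ρbar))) h3

variable {W : WeierstrassCurve ℤ} {p : ℕ} [Fact p.Prime] (hΔ : W.Δ ≠ 0)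

/-- A deformation condition satisfied by the Tate module holds for `E[p]`. -/
theorem cond_rbar (hp : (p : 𝒪) ∈ maximalIdeal 𝒪) (ψ : ℤ_[p] →+* 𝒪)
    {𝒟 : ∀ ⦃A : Type⦄ [CommRing A] [IsLocalRing A] [Algebra 𝒪 A], GaloisRepAdic A → Prop}
    (h𝒟 : GaloisRep.IsDeformationCondition 𝒪 𝒟)
    (hTate : ∀ (g : (Mat 𝒪)ˣ) (hN : MatCont (conjRep g (Tate.tateO hΔ p ψ))),
      𝒟 (matRep (conjRep g (Tate.tateO hΔ p ψ)) hN)) :
    𝒟 (GaloisRepAdic.ofResidualGaloisRep (rbar p hΔ hp)) := by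
  obtain ⟨g, hg⟩ := Tate.exists_isLift hΔ p ψ hp (resHom hp)
  exact cond_ofResidual (ρbar := rbar p hΔ hp) h𝒟 Tate.isCoeff_self
    ((Tate.matCont_tateO hΔ p ψ hp).conj g) hg (hTate g _)

end FLTAgent.RT.Main
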