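import Fermat.Agent.RT.Main.Act
import Fermat.Agent.Semistable.Rep.Instance
import Fermat.Agent.FlatModel.HeckeFlat
import Fermat.Agent.GalRep.Specializations

/-!
# The geometric inputs

Inertia is unipotent at exact level, and the maximal data of levels prime to `p` are flat at `p`.
-/

set_option autoImplicit false
set_option linter.unusedSectionVars false

noncomputable section

open IsLocalRing

namespace FLTAgent.RT.Main

variable {𝒪 : Type} [CommRing 𝒪] [IsDomain 𝒪] [IsDiscreteValuationRing 𝒪]
  [IsAdicComplete (maximalIdeal 𝒪) 𝒪] [Finite (ResidueField 𝒪)] [CharZero 𝒪]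
  {W : WeierstrassCurve ℤ} {p : ℕ} [Fact p.Prime] {aux : Finset ℕ}

/-- Inertia is unipotent at a prime dividing the level exactly. -/
theorem unipotentAtExact (hp : (p : 𝒪) ∈ maximalIdeal 𝒪) : UnipotentAtExact 𝒪 p := by
  intro N _ S _ hNS θ T _ _ _ _ _ _ _ _ H q hq hqp hqN hq2
  exact Semistable.isUnipotentOnInertiaAt_of_echelon hp hNS H hq hqp
    (Semistable.inertiaEchelon_exact hq Fact.out hqp.symm hqN hq2)

/-- The inputs, given the condition at `p` of the maximal data. -/
theorem inputs_of_locMax {loc : PCond} {F : Frame 𝒪 W p loc aux} {N₀ : ℕ}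
    (h : LocMax F N₀) : Inputs F N₀ :=
  ⟨h, unipotentAtExact F.mem_p, Semistable.newformSpecialCharpoly_holds⟩

/-- **At levels prime to `p` the maximal data are flat.** -/
theorem locMax_flat (F : Frame 𝒪 W p (flatAt p) aux) {N₀ : ℕ} (hp : ¬ p ∣ N₀) : LocMax F N₀ := by
  intro N _ S b hS _ hiff _ H
  exact FlatModel.isFlatAt_of_specializations GalRep.specializationsExist (fun h => hp (hiff.mp h))
    hS F.mem_p H.H

end FLTAgent.RT.Main
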