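import Fermat.Agent.RT.Main.Conclusion
import Fermat.Agent.RT.Main.Inputs
import Fermat.Agent.RT.Selmer.Bound
import Fermat.Agent.RT.Shell
import Fermat.Agent.RT.Setting.Coeff

/-!
# The choices of the patching argument

Auxiliary primes, the base level built from the minimal level of `E[p]`, and modularity from a
condition at `p` with its local bound.
-/

set_option autoImplicit false
set_option linter.unusedSectionVars false

noncomputable section

open IsLocalRing Matrix Polynomial WeierstrassCurve FLTAgent.Deformation FLTAgent.GalRep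

namespace FLTAgent.RT.Main

attribute [local instance] dualAlg

variable {W : WeierstrassCurve ℤ} {p : ℕ} [Fact p.Prime]

/-- The conditions on the auxiliary primes: good, congruent to `-1` modulo `p` with `a_r` prime to
`p`; for `p = 3` one of them leaves no elliptic points. -/
structure AuxOK (W : WeierstrassCurve ℤ) (p : ℕ) (aux : Finset ℕ) : Prop where
  spec : ∀ r ∈ aux, r.Prime ∧ W.IsGoodPrimeFor r ∧ r ≠ p ∧ p ∣ r + 1 ∧ ¬ (p : ℤ) ∣ W.apOfModel r
  three : p ≠ 3 ∨ ∃ r ∈ aux, r % 3 = 2

/-- Auxiliary primes exist. -/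
theorem exists_auxOK (hΔ : W.Δ ≠ 0) (hss : W.IsSemistableModel)
    (hirr : W.ModRepIsIrreducible p) : ∃ aux : Finset ℕ, AuxOK W p aux := by
  rcases eq_or_ne p 3 with rfl | hp3
  · obtain ⟨r, hr, hr3, hgood, hmod, hat⟩ :=
      RTIrr.exists_auxiliary_prime_three hΔ hss hirr {3}
    refine ⟨{r}, fun q hq => ?_, Or.inr ⟨r, Finset.mem_singleton_self r, hmod⟩⟩
    rw [Finset.mem_singleton] at hq
    subst hq
    exact ⟨hr, hgood, by simpa using hr3, by omega, by exact_mod_cast hat⟩
  · exact ⟨∅, by simp, Or.inl hp3⟩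

/-- The primes of the base level. -/
def levelSet (W : WeierstrassCurve ℤ) (p : ℕ) (aux extra : Finset ℕ) : Finset ℕ :=
  Shell.minPrimes W p ∪ aux ∪ extra

variable {𝒪 : Type} [CommRing 𝒪] [IsDomain 𝒪] [IsDiscreteValuationRing 𝒪]
  [IsAdicComplete (maximalIdeal 𝒪) 𝒪] [Finite (ResidueField 𝒪)] [CharZero 𝒪]
  {loc : PCond} {aux extra : Finset ℕ} (F : Frame 𝒪 W p loc aux)

include F

theorem prime_of_mem_levelSet (hextra : extra ⊆ {p}) {q : ℕ} (hq : q ∈ levelSet W p aux extra) :
    q.Prime := by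
  simp only [levelSet, Finset.mem_union] at hq
  rcases hq with (hq | hq) | hq
  · exact Shell.prime_of_mem_minPrimes hq
  · exact (F.aux_ok q hq).1
  · rw [Finset.mem_singleton.mp (hextra hq)]
    exact Fact.out

theorem mem_excSet_of_mem_levelSet (hextra : extra ⊆ {p}) {q : ℕ}
    (hq : q ∈ levelSet W p aux extra) : q ∈ excSet W p aux := by
  simp only [levelSet, Finset.mem_union] at hq
  rcases hq with (hq | hq) | hq
  · obtain ⟨⟨hqp, hd⟩, -⟩ := (Shell.mem_minPrimes F.disc_ne).mp hq
    exact Finset.mem_union_left _ (Finset.mem_insert_of_mem (Nat.mem_primeFactors.mpr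
      ⟨hqp, Int.natCast_dvd.mp hd, Int.natAbs_ne_zero.mpr F.disc_ne⟩))
  · exact Finset.mem_union_right _ hq
  · rw [Finset.mem_singleton.mp (hextra hq)]
    exact Finset.mem_union_left _ (Finset.mem_insert_self _ _)

theorem mem_levelSet_of_dvd (hextra : extra ⊆ {p}) {q : ℕ} (hq : q.Prime)
    (hd : q ∣ ∏ l ∈ levelSet W p aux extra, l) : q ∈ levelSet W p aux extra := by
  obtain ⟨l, hl, hql⟩ := hq.prime.exists_mem_finset_dvd hd
  rwa [(Nat.prime_dvd_prime_iff_eq hq (prime_of_mem_levelSet F hextra hl)).mp hql]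

/-- **The base level.** -/
theorem base_levelSet (haux : AuxOK W p aux) (hextra : extra ⊆ {p})
    (hres : W.IsResiduallyModularOfLevel p (Shell.minLevel W p))
    [NeZero (∏ l ∈ levelSet W p aux extra, l)] :
    Base F (∏ l ∈ levelSet W p aux extra, l) where
  sq := Finset.squarefree_prod_of_pairwise_isCoprime (fun a ha b hb hab =>
      Nat.coprime_iff_isRelPrime.1 ((Nat.coprime_primes (prime_of_mem_levelSet F hextra ha)
        (prime_of_mem_levelSet F hextra hb)).2 hab))
    fun a ha => (prime_of_mem_levelSet F hextra ha).squarefree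
  mem q hq hd := mem_excSet_of_mem_levelSet F hextra (mem_levelSet_of_dvd F hextra hq hd)
  notMem i hd := by
    obtain ⟨hq, hb, -, hqp, -, hunr⟩ := F.loc_spec i
    have h := mem_levelSet_of_dvd F hextra hq hd
    simp only [levelSet, Finset.mem_union] at h
    rcases h with (h | h) | h
    · rcases ((Shell.mem_minPrimes F.disc_ne).mp h).2 with ⟨h', -⟩ | ⟨-, h'⟩
      · exact hqp h'
      · exact h' ((isUnramifiedAt_rbar_iff p F.disc_ne F.mem_p).mp hunr)
    · exact F.notMem_aux_of_mem_badSet hb h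
    · exact hqp (Finset.mem_singleton.mp (hextra h))
  nuThree := haux.three.imp id fun ⟨r, hr, hr3⟩ => nuThree_eq_zero_of_dvd (F.aux_ok r hr).1 hr3
    (Finset.dvd_prod_of_mem _ (Finset.mem_union_left _ (Finset.mem_union_right _ hr)))
  part := by
    have : NeZero (∏ q ∈ Shell.minPrimes W p, q) := ⟨Shell.minLevel_pos.ne'⟩
    have : NeZero (Shell.minLevel W p) := ⟨Shell.minLevel_pos.ne'⟩
    have hsub : Shell.minPrimes W p ⊆ levelSet W p aux extra :=
      Finset.subset_union_left.trans Finset.subset_union_left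
    have hfam : ∀ i : Fam W p aux, ¬ famPrime i ∣ ∏ l ∈ levelSet W p aux extra, l := fun i hd =>
      i.2.2 (mem_excSet_of_mem_levelSet F hextra (mem_levelSet_of_dvd F hextra i.2.1 hd))
    refine cohPart_ne_bot_of_dvd (one_dvd _) (Finset.prod_dvd_prod_of_subset _ _ _ hsub)
      prime_famPrime _ (fun i hd => absurd hd (hfam i)) ?_
    refine cohPart_ne_bot_of_isResiduallyModularOfLevel F.mem_p F.ne_two hres prime_famPrime _
      fun i => ⟨fun hd => hfam i (hd.trans (Finset.prod_dvd_prod_of_subset _ _ _ hsub)), ?_, ?_,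
        rfl⟩
    · exact (F.good_of_notMem i.2.1 fun h => i.2.2 (Finset.mem_union_left _ h)).1
    · exact (F.good_of_notMem i.2.1 fun h => i.2.2 (Finset.mem_union_left _ h)).2

theorem p_dvd_levelSet_iff (hextra : extra ⊆ {p}) :
    p ∣ ∏ l ∈ levelSet W p aux extra, l ↔ p ∈ Shell.minPrimes W p ∨ p ∈ extra := by
  constructor
  · intro h
    have h' := mem_levelSet_of_dvd F hextra Fact.out h
    simp only [levelSet, Finset.mem_union] at h'
    rcases h' with (h' | h') | h'
    · exact Or.inl h'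
    · exact absurd rfl (F.aux_ok p h').2.2.1
    · exact Or.inr h'
  · rintro (h | h)
    · exact Finset.dvd_prod_of_mem _ (Finset.mem_union_left _ (Finset.mem_union_left _ h))
    · exact Finset.dvd_prod_of_mem _ (Finset.mem_union_right _ h)

/-- **Modularity from a condition at `p` with a local bound.** -/
theorem exists_modular_level {N₀ : ℕ} [NeZero N₀] (hB : Base F N₀) (hI : LocMax F N₀)
    (ψ : ℤ_[p] →+* 𝒪)
    (hTate : ∀ (c : (Mat 𝒪)ˣ) (hN : MatCont (conjRep c (Tate.tateO F.disc_ne p ψ))),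
      problem 𝒪 p loc (badSet W p) (badSet W p)
        (matRep (conjRep c (Tate.tateO F.disc_ne p ψ)) hN))
    (Cp : GaloisRepAdic (DualNumber (ResidueField 𝒪)) → Prop)
    (hCp : ∀ P : ValuationSubring (AlgebraicClosure ℚ), P.LiesOverPrime p →
      ∃ S : Submodule (ResidueField 𝒪) (P.decompositionSubgroup ℚ → Mat (ResidueField 𝒪)),
        TW.adB1 (barMatrix F.rb) (P.decompositionSubgroup ℚ) ≤ S ∧
        S ≤ TW.adZ1 (barMatrix F.rb) (P.decompositionSubgroup ℚ) ∧
        Module.Finite (ResidueField 𝒪) S ∧ Module.finrank (ResidueField 𝒪) S ≤ 4 ∧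
        ∀ (N : Gal →* Mat (DualNumber (ResidueField 𝒪))) (hN : MatCont N),
          (∀ σ, (N σ).map TrivSqZeroExt.fst = barMatrix F.rb σ) →
          (∀ σ, Matrix.trace (TW.liftCocycle (barMatrix F.rb) N σ) = 0) →
          Cp (matRep N hN) →
          (fun g : P.decompositionSubgroup ℚ => TW.liftCocycle (barMatrix F.rb) N g) ∈ S)
    (hloc : ∀ (N : Gal →* Mat (DualNumber (ResidueField 𝒪))) (hN : MatCont N),
      loc (matRep N hN) → Cp (matRep N hN)) :
    ∃ N : ℕ, Squarefree N ∧ W.IsModularModelOfLevel N := by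
  obtain ⟨Pl⟩ := F.nonempty_places
  have : CharP (ResidueField 𝒪) p := charP_of_injective_ringHom (resHom F.mem_p).injective p
  obtain ⟨r, g, hle, hSt⟩ := exists_stages F Pl F.noExtra (selmerAddBound F.ne_two _) Cp 0
    (fun P hP => by simpa using hCp P hP) (fun _ _ j => j.elim)
    fun S D f hf N hN _ _ hD => hloc N hN hD.1.2.1
  refine ⟨_, squarefree_baseN F hB Finset.univ,
    isModularModelOfLevel_of_stages hB (inputs_of_locMax hI) ψ hTate (fun n => (hSt n).some) ?_⟩
  rw [Nat.card_sum, Nat.card_sum, Nat.card_sigma, Nat.card_of_isEmpty, zero_add, Nat.card_fin]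
  simp only [Nat.card_fin]
  omega

end FLTAgent.RT.Main
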