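import Fermat.Agent.RT.Main.Problem
import Fermat.Agent.RT.Setting.Sys
import Fermat.Agent.RT.Setting.Local
import Fermat.Agent.TW.Assembly

/-!
# The setting of the patching argument

A semistable curve with irreducible `E[p]`, a condition at `p`, a few auxiliary primes at which
every deformation is unramified, and the bad primes where `E[p]` is unramified with a place, a
Frobenius and a normal form each.
-/

set_option autoImplicit false
set_option linter.unusedSectionVars false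

noncomputable section

open IsLocalRing Matrix Polynomial WeierstrassCurve FLTAgent.Deformation FLTAgent.LevelDrop

namespace FLTAgent.RT.Main

/-- The bad primes and `p`. -/
def badSet (W : WeierstrassCurve ℤ) (p : ℕ) : Finset ℕ := insert p W.Δ.natAbs.primeFactors

/-- The primes outside the Hecke family. -/
abbrev excSet (W : WeierstrassCurve ℤ) (p : ℕ) (aux : Finset ℕ) : Finset ℕ := badSet W p ∪ aux

/-- The Hecke family. -/
abbrev Fam (W : WeierstrassCurve ℤ) (p : ℕ) (aux : Finset ℕ) : Type := AwayPrimes (excSet W p aux)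

/-- Its primes. -/
abbrev famPrime {W : WeierstrassCurve ℤ} {p : ℕ} {aux : Finset ℕ} (i : Fam W p aux) : ℕ := i.1

theorem prime_famPrime {W : WeierstrassCurve ℤ} {p : ℕ} {aux : Finset ℕ} (i : Fam W p aux) :
    (famPrime i).Prime := i.2.1

variable (𝒪 : Type) [CommRing 𝒪] [IsDomain 𝒪] [IsDiscreteValuationRing 𝒪]
  [IsAdicComplete (maximalIdeal 𝒪) 𝒪] [Finite (ResidueField 𝒪)]

/-- The coefficients of the curve. -/
abbrev famCoeff {W : WeierstrassCurve ℤ} {p : ℕ} {aux : Finset ℕ} (i : Fam W p aux) : 𝒪 :=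
  (W.apOfModel (famPrime i) : 𝒪)

/-- The hypotheses of the patching argument. -/
structure Frame (W : WeierstrassCurve ℤ) (p : ℕ) [Fact p.Prime] (loc : PCond) (aux : Finset ℕ) :
    Prop where
  disc_ne : W.Δ ≠ 0
  ne_two : p ≠ 2
  mem_p : (p : 𝒪) ∈ maximalIdeal 𝒪
  semistable : W.IsSemistableModel
  irr : W.ModRepIsIrreducible p
  quad : ∀ (φ : ZMod p →+* ResidueField 𝒪) (b c : ZMod p), ∃ α β : ResidueField 𝒪,
    X ^ 2 + C (φ b) * X + C (φ c) = (X - C α) * (X - C β)
  type : IsLocalType 𝒪 p loc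
  resid : loc (GaloisRepAdic.ofResidualGaloisRep (rbar p disc_ne mem_p))
  aux_ok : ∀ r ∈ aux, r.Prime ∧ W.IsGoodPrimeFor r ∧ r ≠ p ∧ (r : 𝒪) + 1 ∈ maximalIdeal 𝒪 ∧
    ¬ (p : ℤ) ∣ W.apOfModel r

variable {𝒪} {W : WeierstrassCurve ℤ} {p : ℕ} [Fact p.Prime] {loc : PCond} {aux : Finset ℕ}
  (F : Frame 𝒪 W p loc aux)

namespace Frame

/-- The residual representation. -/
abbrev rb : ResidualGaloisRep (ResidueField 𝒪) := rbar p F.disc_ne F.mem_p

/-- The primes where `E[p]` needs ramification, with `p`. -/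
abbrev minS : Finset ℕ := minSet p F.disc_ne F.mem_p

/-- The bad primes other than `p` where `E[p]` is unramified. -/
abbrev Loc : Type := {q : ℕ // q ∈ badSet W p \ F.minS}

theorem minS_subset : F.minS ⊆ badSet W p := fun q hq => by
  rcases dvd_Δ_of_mem_minSet p F.disc_ne F.mem_p hq with rfl | h
  · exact Finset.mem_insert_self _ _
  · exact Finset.mem_insert_of_mem (Nat.mem_primeFactors.mpr
      ⟨prime_of_mem_minSet p F.disc_ne F.mem_p q hq, Int.natCast_dvd.mp h,
        Int.natAbs_ne_zero.mpr F.disc_ne⟩)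

theorem prime_of_mem_badSet {q : ℕ} (hq : q ∈ badSet W p) : q.Prime := by
  rcases Finset.mem_insert.mp hq with rfl | h
  · exact Fact.out
  · exact Nat.prime_of_mem_primeFactors h

include F

theorem prime_of_mem_excSet {q : ℕ} (hq : q ∈ excSet W p aux) : q.Prime := by
  rcases Finset.mem_union.mp hq with h | h
  · exact prime_of_mem_badSet h
  · exact (F.aux_ok q h).1

theorem good_of_notMem {q : ℕ} (hq : q.Prime) (h : q ∉ badSet W p) :
    W.IsGoodPrimeFor q ∧ q ≠ p := by
  simp only [badSet, Finset.mem_insert, not_or, Nat.mem_primeFactors, not_and] at h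
  exact ⟨fun hd => h.2 hq (Int.natCast_dvd.mp hd) (Int.natAbs_ne_zero.mpr F.disc_ne), h.1⟩

theorem loc_spec (i : F.Loc) :
    i.1.Prime ∧ i.1 ∈ badSet W p ∧ i.1 ∉ F.minS ∧ i.1 ≠ p ∧ (i.1 : ℤ) ∣ W.Δ ∧
      F.rb.IsUnramifiedAt i.1 := by
  obtain ⟨h1, h2⟩ := Finset.mem_sdiff.mp i.2
  have hq := prime_of_mem_badSet h1
  have hqp : i.1 ≠ p := fun h => h2 (by rw [h]; exact mem_minSet_self p F.disc_ne F.mem_p)
  refine ⟨hq, h1, h2, hqp, ?_, ?_⟩
  · rcases Finset.mem_insert.mp h1 with h | h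
    · exact absurd h hqp
    · exact Int.natCast_dvd.mpr (Nat.dvd_of_mem_primeFactors h)
  · by_contra h
    exact h2 ((mem_minSet_iff p F.disc_ne F.mem_p hq hqp).mpr h)

theorem notMem_aux_of_mem_badSet {q : ℕ} (hq : q ∈ badSet W p) : q ∉ aux := fun h => by
  obtain ⟨-, hgood, hqp, -, -⟩ := F.aux_ok q h
  rcases Finset.mem_insert.mp hq with h' | h'
  · exact hqp h'
  · exact hgood (Int.natCast_dvd.mpr (Nat.dvd_of_mem_primeFactors h'))

/-- The coefficients are congruent to the curve. -/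
theorem sys : Sys W p (excSet W p aux) famPrime (famCoeff 𝒪 (aux := aux) (W := W) (p := p)) :=
  sys_awayPrimes (Finset.mem_union_left _ (Finset.mem_insert_self _ _)) fun _ hℓ h =>
    (F.good_of_notMem hℓ fun h' => h (Finset.mem_union_left _ h')).1

theorem nonEis : NonEis famPrime (famCoeff 𝒪 (aux := aux) (W := W) (p := p)) :=
  F.sys.nonEis F.disc_ne F.mem_p F.ne_two F.irr

theorem residualHyp : TW.ResidualHyp p (barMatrix F.rb) F.minS := by
  have : CharP (ResidueField 𝒪) p := charP_of_injective_ringHom (resHom F.mem_p).injective p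
  exact TW.residualHyp_barMatrix F.rb
    (rbar_isAbsolutelyIrreducible p F.disc_ne F.mem_p F.ne_two F.irr)
    (rbar_detIsCyclotomic p F.disc_ne F.mem_p) (rbar_hsplit p F.disc_ne F.mem_p F.quad)
    (fun K _ _ G hG V hV =>
      rbar_hTW p F.disc_ne F.mem_p F.semistable F.ne_two F.irr K G hG V hV)
    _ (mem_minSet_self p F.disc_ne F.mem_p) (prime_of_mem_minSet p F.disc_ne F.mem_p)
    fun _ hq hqp => mem_minSet_iff p F.disc_ne F.mem_p hq hqp

theorem absIrr : F.rb.IsAbsolutelyIrreducible :=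
  rbar_isAbsolutelyIrreducible p F.disc_ne F.mem_p F.ne_two F.irr

/-- A place, a Frobenius and a normal form at each prime of `Loc`. -/
structure Places : Type where
  P : F.Loc → ValuationSubring (AlgebraicClosure ℚ)
  φ : F.Loc → Gal
  Ds : F.Loc → LocalDatum 𝒪
  liesOver : ∀ i, (P i).LiesOverPrime i.1
  frob : ∀ i, (P i).IsFrobeniusAt (φ i) i.1
  q_eq : ∀ i, (Ds i).q = i.1
  base : ∀ i, Gen.IsBaseAt (Ds i) (barMatrix F.rb (φ i))

theorem det_barMatrix {q : ℕ} (hq : q.Prime) (hqp : q ≠ p)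
    {P : ValuationSubring (AlgebraicClosure ℚ)} (hP : P.LiesOverPrime q) {φ : Gal}
    (hφ : P.IsFrobeniusAt φ q) : (barMatrix F.rb φ).det = (q : ResidueField 𝒪) :=
  F.residualHyp.det φ q fun _ hμ =>
    Eisen.frobenius_apply_root hP hφ (Fact.out : p.Prime).ne_zero
      ((Nat.coprime_primes Fact.out hq).mpr hqp.symm) hμ

theorem nonempty_places : Nonempty F.Places := by
  have h : ∀ i : F.Loc, ∃ (P : ValuationSubring (AlgebraicClosure ℚ)) (φ : Gal)
      (D : LocalDatum 𝒪), P.LiesOverPrime i.1 ∧ P.IsFrobeniusAt φ i.1 ∧ D.q = i.1 ∧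
        Gen.IsBaseAt D (barMatrix F.rb φ) := fun i => by
    obtain ⟨hq, -, -, hqp, -, -⟩ := F.loc_spec i
    obtain ⟨P, φ, hP, hφ⟩ := Frobenius.exists_liesOverPrime_isFrobeniusAt hq
    obtain ⟨D, hD, hB⟩ := Gen.exists_localDatum (Fact.out : p.Prime) F.ne_two F.mem_p hq hqp _
      (F.det_barMatrix hq hqp hP hφ)
    exact ⟨P, φ, D, hP, hφ, hD, hB⟩
  choose P φ D h1 h2 h3 h4 using h
  exact ⟨⟨P, φ, D, h1, h2, h3, h4⟩⟩

end Frame

end FLTAgent.RT.Main
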