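import Fermat.Agent.RT.Main.Residual
import Fermat.Agent.RT.Irr.Local
import Fermat.Agent.RT.HeckeRep.Conds

/-!
# Deformation problems with a given condition at `p`

Cyclotomic determinant, the condition at `p`, unramified outside `S` and unipotent inertia at `T`.
-/

set_option autoImplicit false
set_option linter.unusedSectionVars false

noncomputable section

open IsLocalRing Matrix WeierstrassCurve FLTAgent.Deformation FLTAgent.LevelDrop

namespace FLTAgent.RT.Main

/-- A condition at `p` on representations over every local ring. -/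
abbrev PCond : Type 1 := ∀ ⦃A : Type⦄ [CommRing A] [IsLocalRing A], GaloisRepAdic A → Prop

/-- Flat at `p`. -/
abbrev flatAt (p : ℕ) : PCond := fun _A _ _ ρ => ρ.IsFlatAt p

/-- Strictly ordinary at `p`. -/
abbrev strictAt (p : ℕ) : PCond := fun _A _ _ ρ => ρ.IsStrictOrdinaryAt p

variable (𝒪 : Type) [CommRing 𝒪]

/-- The problem with condition `loc` at `p`, ramification in `S`, unipotent inertia at `T`. -/
abbrev problem (p : ℕ) (loc : PCond) (S T : Finset ℕ) :
    ∀ ⦃A : Type⦄ [CommRing A] [IsLocalRing A] [Algebra 𝒪 A], GaloisRepAdic A → Prop :=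
  fun _A _ _ _ ρ => (ρ.DetIsCyclotomic p ∧ loc ρ ∧
    ∀ q : ℕ, q.Prime → q ∉ S → ρ.IsUnramifiedAt q) ∧
    ∀ q ∈ T, q.Prime → q ≠ p → ρ.IsUnipotentOnInertiaAt q

/-- A condition at `p` giving deformation problems with deformation rings. -/
structure IsLocalType [IsDomain 𝒪] [IsDiscreteValuationRing 𝒪]
    [IsAdicComplete (maximalIdeal 𝒪) 𝒪] [Finite (ResidueField 𝒪)] (p : ℕ) (loc : PCond) : Prop where
  isCond : ∀ S T, GaloisRep.IsDeformationCondition 𝒪 (problem 𝒪 p loc S T)
  tangentFinite : ∀ (ρbar : ResidualGaloisRep (ResidueField 𝒪)) (S T : Finset ℕ),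
    GaloisRep.TangentFinite 𝒪 ρbar (problem 𝒪 p loc S T)

variable [IsDomain 𝒪] [IsDiscreteValuationRing 𝒪] [IsAdicComplete (maximalIdeal 𝒪) 𝒪]
  [Finite (ResidueField 𝒪)] {p : ℕ} [Fact p.Prime]

theorem isLocalType_flat (hp : (p : 𝒪) ∈ maximalIdeal 𝒪) : IsLocalType 𝒪 p (flatAt p) :=
  ⟨RTCond.flatProblem_isDeformationCondition 𝒪 hp, RTCond.flatProblem_tangentFinite 𝒪 hp⟩

theorem isLocalType_strict (hp2 : p ≠ 2) (hp : (p : 𝒪) ∈ maximalIdeal 𝒪) :
    IsLocalType 𝒪 p (strictAt p) :=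
  ⟨RTCond.strictProblem_isDeformationCondition 𝒪 hp2 hp,
    RTCond.strictProblem_tangentFinite 𝒪 hp⟩

variable {𝒪}

/-- An unramified representation has unipotent inertia. -/
theorem isUnipotentOnInertiaAt_of_isUnramifiedAt {A : Type} [CommRing A] [IsLocalRing A]
    {ρ : GaloisRepAdic A} {q : ℕ} (h : ρ.IsUnramifiedAt q) : ρ.IsUnipotentOnInertiaAt q := by
  intro P hP σ hσ
  rw [h P hP σ hσ, ← LinearMap.charpoly_toMatrix (1 : Module.End A ρ.V) (stdBasis ρ),
    LinearMap.toMatrix_one, Matrix.charpoly_one]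
  rfl

variable {W : WeierstrassCurve ℤ} (hΔ : W.Δ ≠ 0) (hp : (p : 𝒪) ∈ maximalIdeal 𝒪)

/-- `E[p]` is unramified outside `p` and the primes needing it. -/
theorem isUnramifiedAt_ofResidual {q : ℕ} (hq : q.Prime) (hqS : q ∉ minSet p hΔ hp) :
    (GaloisRepAdic.ofResidualGaloisRep (rbar p hΔ hp)).IsUnramifiedAt q := by
  have hqp : q ≠ p := fun h => hqS (h ▸ mem_minSet_self p hΔ hp)
  have h := (mem_minSet_iff p hΔ hp hq hqp).not.mp hqS
  rw [not_not] at h
  exact h

/-- `E[p]` has unipotent inertia away from `p`. -/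
theorem isUnipotentOnInertiaAt_ofResidual (hss : W.IsSemistableModel) {q : ℕ} (hq : q.Prime)
    (hqp : q ≠ p) :
    (GaloisRepAdic.ofResidualGaloisRep (rbar p hΔ hp)).IsUnipotentOnInertiaAt q := by
  intro A hA σ hσ
  obtain ⟨ht, hd⟩ := RTIrr.unipotent_inertia_ne hΔ p hss hq hqp hA hσ
  show LinearMap.charpoly ((rbar p hΔ hp).ρ σ) = _
  rw [charpoly_rbar, ← LinearMap.charpoly_toMatrix _ (RTIrr.torsBasis hΔ p), ← RTIrr.torsMat_eq,
    Matrix.charpoly_fin_two, ht, hd]
  simp only [Polynomial.map_add, Polynomial.map_sub, Polynomial.map_mul, Polynomial.map_pow,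
    Polynomial.map_X, Polynomial.map_C, map_one, map_ofNat, Polynomial.map_one,
    Polynomial.map_ofNat]
  ring

/-- **`E[p]` satisfies the problems** once it satisfies the condition at `p`. -/
theorem problem_ofResidual (hss : W.IsSemistableModel) (loc : PCond)
    (hloc : loc (GaloisRepAdic.ofResidualGaloisRep (rbar p hΔ hp))) (S T : Finset ℕ)
    (hS : minSet p hΔ hp ⊆ S) :
    problem 𝒪 p loc S T (GaloisRepAdic.ofResidualGaloisRep (rbar p hΔ hp)) :=
  ⟨⟨rbar_detIsCyclotomic p hΔ hp, hloc, fun _q hq hqS =>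
    isUnramifiedAt_ofResidual hΔ hp hq fun h => hqS (hS h)⟩,
    fun _q _ hq hqp => isUnipotentOnInertiaAt_ofResidual hΔ hp hss hq hqp⟩

/-- **Deformation rings exist.** -/
theorem nonempty_data (hss : W.IsSemistableModel) (hp2 : p ≠ 2) (hirr : W.ModRepIsIrreducible p)
    {loc : PCond} (ht : IsLocalType 𝒪 p loc)
    (hloc : loc (GaloisRepAdic.ofResidualGaloisRep (rbar p hΔ hp))) (S T : Finset ℕ)
    (hS : minSet p hΔ hp ⊆ S) :
    Nonempty (GaloisRep.DeformationRingData 𝒪 (rbar p hΔ hp) (problem 𝒪 p loc S T)) :=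
  nonempty_deformationRingData (rbar_isAbsolutelyIrreducible p hΔ hp hp2 hirr) (ht.isCond S T)
    (problem_ofResidual hΔ hp hss loc hloc S T hS) (ht.tangentFinite _ S T)

end FLTAgent.RT.Main
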