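import Fermat.Agent.RT.Sys.Action
import Fermat.Agent.RT.HeckeRep.Dropped
import Fermat.Agent.GalRep.Inputs
import Fermat.Agent.GalRep.Specializations

/-!
# The action with finitely many primes outside the family

The part of a level carries the action of a deformation ring in which Frobenius traces act as the
operators at all good primes, also at those outside the defining family.
-/

set_option autoImplicit false
set_option linter.unusedSectionVars false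

noncomputable section

open IsLocalRing Matrix FLTAgent.GalRep FLTAgent.Deformation

namespace FLTAgent.RT.Main

local notation "Γℚ" => AlgebraicClosure ℚ ≃ₐ[ℚ] AlgebraicClosure ℚ

variable {𝒪 : Type} [CommRing 𝒪] [IsDomain 𝒪] [IsDiscreteValuationRing 𝒪]
  [IsAdicComplete (maximalIdeal 𝒪) 𝒪] [Finite (ResidueField 𝒪)] [CharZero 𝒪]
  {ρbar : ResidualGaloisRep (ResidueField 𝒪)}
  {M N : ℕ} {D : Type} [CommGroup D] [Fintype D] {χ : (ZMod M)ˣ →* D}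
  [Fact (Odd (Nat.card D))] [NeZero N] {hMN : M ∣ N} {ι : Type} {l : ι → ℕ}
  {hl : ∀ i, (l i).Prime} {a : ι → 𝒪}
  {𝒟 : ∀ ⦃A : Type⦄ [CommRing A] [IsLocalRing A] [Algebra 𝒪 A], GaloisRepAdic A → Prop}

/-- **The action on a part**, with the Hecke algebra it comes from. -/
theorem exists_act_dropped (h𝒟 : GaloisRep.IsDeformationCondition 𝒪 𝒟)
    (Dat : GaloisRep.DeformationRingData 𝒪 ρbar 𝒟) (hne : NonEis l a) (hsq : Squarefree M)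
    (hex : ∀ q : ℕ, q.Prime → q ∣ M → ¬ q ^ 2 ∣ N) [Nontrivial (cohPart χ hMN hl a)]
    {N' : ℕ} [NeZero N'] (hN' : N' = N * M) {p : ℕ} [Fact p.Prime] {S : Finset ℕ}
    (hS : ∀ q : ℕ, q.Prime → q ∣ N' → q ∈ S) (hpS : p ∈ S)
    (hp2 : p ≠ 2) (hp : (p : 𝒪) ∈ maximalIdeal 𝒪) (habs : ρbar.IsAbsolutelyIrreducible)
    (b : ℕ → 𝒪) (S₁ : Finset ℕ)
    (hidx : ∀ ℓ : ℕ, ℓ.Prime → ¬ ℓ ∣ N' → ℓ ∉ S → ℓ ∉ S₁ → ∃ i, l i = ℓ ∧ b ℓ = a i)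
    (hres : ∀ ℓ : ℕ, ℓ.Prime → ¬ ℓ ∣ N' → ℓ ∉ S → ℓ ≠ p →
      ∀ A : ValuationSubring (AlgebraicClosure ℚ), A.LiesOverPrime ℓ →
        ∀ σ : Γℚ, A.IsFrobeniusAt σ ℓ →
          LinearMap.trace (ResidueField 𝒪) ρbar.V (ρbar.ρ σ) = residue 𝒪 (b ℓ))
    (hmax : ∀ H : MaxDatum N' S 𝒪 b ρbar, 𝒟 H.H.ρ) :
    ∃ (Θ : awayHecke N' →+* Module.End 𝒪 (cohPart χ hMN hl a))
      (φ : Dat.R →ₐ[𝒪] Module.End 𝒪 (cohPart χ hMN hl a)),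
      Sys.IsFrobCompat Dat S φ ∧ (∀ r s, Commute (φ r) (φ s)) ∧
      (∀ t, Θ (restrictAway hS t) ∈ φ.range) ∧
      ∀ (ℓ : ℕ) (hℓ : ℓ.Prime) (hℓN : ¬ ℓ ∣ N'), ℓ ∉ S →
        ∀ A : ValuationSubring (AlgebraicClosure ℚ), A.LiesOverPrime ℓ →
          ∀ σ : Γℚ, A.IsFrobeniusAt σ ℓ → φ (Dat.ρ.trace σ) = Θ (awayT N' hℓ hℓN) := by
  classical
  have := isAddTorsionFree_of_charZero (O := 𝒪)
  have := moduleFinite_coh (χ := χ) 𝒪 𝒪 hMN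
  have := moduleFree_coh (χ := χ) (O := 𝒪) hMN
  have : IsNoetherian 𝒪 (Coh N χ 𝒪) := isNoetherian_of_isNoetherianRing_of_finite 𝒪 _
  have : Module.Finite 𝒪 (cohPart χ hMN hl a) := Module.IsNoetherian.finite 𝒪 _
  have : Module.Free 𝒪 (cohPart χ hMN hl a) := Module.Free.of_basis
    (Submodule.basisOfPid (Module.Free.chooseBasis 𝒪 (Coh N χ 𝒪)) (cohPart χ hMN hl a)).2
  obtain ⟨Θ, hΘ⟩ := exists_theta (χ := χ) hMN hl a hne hsq hex hN'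
  obtain ⟨Mm⟩ := matModel_of_specializations specializationsExist N' p S hS
  have hnil₁ : ∀ (ℓ : ℕ) (hℓ : ℓ.Prime) (hℓN : ¬ ℓ ∣ N') (hℓS : ℓ ∉ (↑S : Set ℕ)), ℓ ∉ S₁ →
      IsTopNilpotent ((Θ.comp (restrictAway hS)) (CuspForm.heckeAlgebra.T hℓ hℓN hℓS) -
        algebraMap 𝒪 (Module.End 𝒪 (cohPart χ hMN hl a)) (b ℓ)) := by
    intro ℓ hℓ hℓN hℓS hℓS₁
    obtain ⟨i, hi, hbi⟩ := hidx ℓ hℓ hℓN (by simpa using hℓS) hℓS₁
    rw [hbi]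
    subst hi
    exact isTopNilpotent_part (X := fun i => opP 𝒪 𝒪 χ hMN (hl i))
      (fun i j => opP_comm (χ := χ) 𝒪 𝒪 hMN (hl i) (hl j)) a (i := i) (fun v => hΘ _ hℓ hℓN v)
  have hnil : ∀ (ℓ : ℕ) (hℓ : ℓ.Prime) (hℓN : ¬ ℓ ∣ N') (hℓS : ℓ ∉ (↑S : Set ℕ)),
      IsTopNilpotent ((Θ.comp (restrictAway hS)) (CuspForm.heckeAlgebra.T hℓ hℓN hℓS) -
        algebraMap 𝒪 (Module.End 𝒪 (cohPart χ hMN hl a)) (b ℓ)) := by
    intro ℓ hℓ hℓN hℓS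
    obtain ⟨A, σ, hA, hσ⟩ := Frobenius.exists_liesOverPrime_isFrobeniusAt hℓ
    exact isTopNilpotent_of_dropped _ Mm frobeniusDense hp b S₁ hnil₁ ρbar hres hℓ hℓN hℓS
      (fun h => hℓS (by rw [h]; exact Finset.mem_coe.mpr hpS)) A hA σ hσ
  obtain ⟨hloc, ρ, φ, -, hsurj, -, -, -, htr, hfrob⟩ :=
    exists_algHom_of_maxDatum (Θ.comp (restrictAway hS)) Mm frobeniusDense hS hpS hp2 hp b hnil
      habs ∅ (fun ℓ h1 h2 h3 _ h5 => hres ℓ h1 h2 h3 h5) h𝒟 Dat hmax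
  let φ' : Dat.R →ₐ[𝒪] Module.End 𝒪 (cohPart χ hMN hl a) :=
    (heckeImage (Θ.comp (restrictAway hS))).val.comp φ
  have key : ∀ (ℓ : ℕ) (hℓ : ℓ.Prime) (hℓN : ¬ ℓ ∣ N'), ℓ ∉ S →
      ∀ A : ValuationSubring (AlgebraicClosure ℚ), A.LiesOverPrime ℓ →
        ∀ σ : Γℚ, A.IsFrobeniusAt σ ℓ → φ' (Dat.ρ.trace σ) = Θ (awayT N' hℓ hℓN) := by
    intro ℓ hℓ hℓN hℓS A hA σ hσ
    show (φ (Dat.ρ.trace σ)).val = _
    rw [htr, (hfrob ℓ hℓ hℓN (by simpa using hℓS) A hA σ hσ).1, coe_toImage]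
    rfl
  refine ⟨Θ, φ', fun ℓ hℓ hℓS A hA σ hσ v => ?_, fun r s => ?_, fun t => ?_, key⟩
  · have hℓN : ¬ ℓ ∣ N' := fun hd => hℓS (hS ℓ hℓ hd)
    rw [key ℓ hℓ hℓN hℓS A hA σ hσ]
    exact hΘ ℓ hℓ hℓN v
  · exact (Commute.all (φ r) (φ s)).map (heckeImage (Θ.comp (restrictAway hS))).val
  · obtain ⟨r, hr⟩ := hsurj (toImage (Θ.comp (restrictAway hS)) t)
    exact ⟨r, congrArg Subtype.val hr⟩

end FLTAgent.RT.Main
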