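import Fermat.Agent.RT.Gen.Inertia
import Fermat.Agent.Deformation.Residual
import Fermat.Agent.Deformation.Export
import Fermat.Prelude.Def_GaloisRep_LocalConditions
import Mathlib.LinearAlgebra.Matrix.Charpoly.Coeff

/-!
# Primes where every lift is unramified

At a prime `q ≡ -1` modulo `p` at which the residual representation is unramified with non-zero
Frobenius trace, every deformation is unramified.
-/

set_option autoImplicit false
set_option linter.unusedSectionVars false

noncomputable section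

open IsLocalRing Matrix FLTAgent.Deformation

namespace FLTAgent.RT.Main

local notation "Qb" => AlgebraicClosure ℚ

/-- In a ring where `2` is invertible a matrix anticommuting with an invertible matrix of unit
trace vanishes. -/
theorem eq_zero_of_anticomm {S : Type} [CommRing S] {X Y : Mat S} (h2 : IsUnit (2 : S))
    (ht : IsUnit X.trace) (hX : IsUnit X) (h : X * Y = -(Y * X)) : Y = 0 := by
  have hch : X * X = X.trace • X - X.det • (1 : Mat S) := by
    ext i j
    fin_cases i <;> fin_cases j <;>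
      simp [Matrix.mul_apply, Fin.sum_univ_two, Matrix.trace_fin_two, Matrix.det_fin_two] <;> ring
  have h1 : X * X * Y = Y * (X * X) := by
    rw [mul_assoc, h, mul_neg, ← mul_assoc, h, neg_mul, neg_neg, mul_assoc]
  rw [hch, sub_mul, mul_sub, Matrix.smul_mul, Matrix.smul_mul, Matrix.mul_smul, Matrix.mul_smul,
    one_mul, mul_one, sub_left_inj] at h1
  have h3 : X * Y = Y * X := ht.smul_left_cancel.mp h1
  have h4 : (2 : S) • (X * Y) = 0 := by
    rw [two_smul]
    nth_rw 1 [h]
    rw [← h3, neg_add_cancel]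
  have h5 : X * Y = 0 := h2.smul_left_cancel.mp (h4.trans (smul_zero _).symm)
  exact hX.mul_right_injective (h5.trans (mul_zero X).symm)

/-- Powers of `1 + Y` for `Y` of square zero. -/
theorem one_add_pow_of_sq_zero {S : Type} [CommRing S] {Y : Mat S} (h : Y * Y = 0) (n : ℕ) :
    (1 + Y) ^ n = 1 + (n : S) • Y := by
  induction n with
  | zero => simp
  | succ n ih =>
    rw [pow_succ, ih, mul_add, mul_one, add_mul, one_mul, Matrix.smul_mul, h, smul_zero, add_zero,
      Nat.cast_succ, add_smul, one_smul]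
    abel

variable {R : Type} [CommRing R] [IsLocalRing R] [IsNoetherianRing R]
  [IsAdicComplete (maximalIdeal R) R] {p : ℕ} [Fact p.Prime] {q : ℕ}

/-- **Automatic unramifiedness**, for matrices. -/
theorem eq_one_of_inertia (hpR : (p : R) ∈ maximalIdeal R) (hq : q.Prime) (hqp : q ≠ p)
    (hq1 : (q : R) + 1 ∈ maximalIdeal R) (h2 : IsUnit (2 : R)) {A : ValuationSubring Qb}
    (hA : A.LiesOverPrime q) {φ : Gal} (hφ : A.IsFrobeniusAt φ q) {M : Gal →* Mat R}
    (hM : MatCont M)
    (hres : ∀ σ ∈ A.inertiaSubgroupIn ℚ, ∀ i j, (M σ - 1) i j ∈ maximalIdeal R)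
    (htr : IsUnit (M φ).trace) {σ : Gal} (hσ : σ ∈ A.inertiaSubgroupIn ℚ) : M σ = 1 := by
  obtain ⟨τ, hτ, hgen, hcomm⟩ := Gen.exists_inertia_generator hpR hq hqp hA hM hres
  set Y := M τ - 1 with hY
  have hmap : ∀ n, Gen.modPow M n τ =
      1 + (Ideal.Quotient.mk (maximalIdeal R ^ n)).mapMatrix Y := fun n => by
    rw [hY, map_sub, map_one, add_sub_cancel]
    rfl
  have key : ∀ n, ∀ i j, Y i j ∈ maximalIdeal R ^ (n + 1) := by
    intro n
    induction n with
    | zero => simpa [hY] using hres τ hτ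
    | succ n ih =>
      set π := Ideal.Quotient.mk (maximalIdeal R ^ (n + 2))
      set y := π.mapMatrix Y with hy
      have hy2 : y * y = 0 := by
        rw [hy, ← map_mul]
        ext i j
        refine Ideal.Quotient.eq_zero_iff_mem.mpr ?_
        rw [Matrix.mul_apply]
        refine Ideal.sum_mem _ fun l _ => Ideal.pow_le_pow_right (show n + 2 ≤ (n + 1) + (n + 1) by
          omega) ?_
        rw [pow_add]
        exact Ideal.mul_mem_mul (ih i l) (ih l j)
      have hq0 : ((q : R ⧸ maximalIdeal R ^ (n + 2)) + 1) • y = 0 := by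
        ext i j
        rw [Matrix.smul_apply, smul_eq_mul, ← map_natCast π, ← map_one π, ← map_add]
        show π _ * π (Y i j) = 0
        rw [← map_mul, Ideal.Quotient.eq_zero_iff_mem, pow_succ']
        exact Ideal.mul_mem_mul hq1 (ih i j)
      have hqy : (q : R ⧸ maximalIdeal R ^ (n + 2)) • y = -y := by
        rw [add_smul, one_smul] at hq0
        exact eq_neg_of_add_eq_zero_left hq0
      have h := congrArg π.mapMatrix (hcomm φ hφ)
      rw [map_mul, map_mul, map_pow] at h
      have e : π.mapMatrix (M τ) = 1 + y := hmap (n + 2)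
      rw [e, one_add_pow_of_sq_zero hy2, hqy, mul_add, mul_one, add_mul, one_mul, neg_mul,
        add_right_inj] at h
      have h0 := eq_zero_of_anticomm (X := π.mapMatrix (M φ))
        (by have := h2.map π; rwa [map_ofNat] at this)
        (by
          rw [RingHom.mapMatrix_apply, Matrix.trace_fin_two, Matrix.map_apply, Matrix.map_apply,
            ← map_add, ← Matrix.trace_fin_two]
          exact htr.map π)
        (((Group.isUnit φ).map M).map π.mapMatrix)
        h
      intro i j
      exact Ideal.Quotient.eq_zero_iff_mem.mp (congrFun (congrFun h0 i) j)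
  have hτ1 : M τ = 1 := by
    rw [← sub_eq_zero]
    ext i j
    refine eq_zero_of_forall_mem_pow (I := maximalIdeal R) fun n => ?_
    exact Ideal.pow_le_pow_right n.le_succ (key n i j)
  ext i j
  rw [← sub_eq_zero]
  refine eq_zero_of_forall_mem_pow (I := maximalIdeal R) fun n => ?_
  obtain ⟨k, hk⟩ := hgen n σ hσ
  have e : Gen.modPow M n τ = 1 := by
    show (Ideal.Quotient.mk (maximalIdeal R ^ n)).mapMatrix (M τ) = 1
    rw [hτ1, map_one]
  rw [e, one_pow] at hk
  have := congrFun (congrFun hk i) j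
  rw [← Ideal.Quotient.eq]
  refine this.trans ?_
  rw [Matrix.one_apply, Matrix.one_apply]
  split <;> simp

variable {𝒪 : Type} [CommRing 𝒪] [IsLocalRing 𝒪] [Algebra 𝒪 R]

/-- **Automatic unramifiedness** of a deformation of `ρbar`. -/
theorem isUnramifiedAt_of_residual (hR : IsCoeff 𝒪 R) (hp : (p : 𝒪) ∈ maximalIdeal 𝒪)
    (hq : q.Prime) (hqp : q ≠ p) (hq1 : (q : 𝒪) + 1 ∈ maximalIdeal 𝒪) (h2 : IsUnit (2 : 𝒪))
    {ρbar : ResidualGaloisRep (ResidueField 𝒪)} (hunr : ρbar.IsUnramifiedAt q)
    (htr : ∀ (A : ValuationSubring Qb), A.LiesOverPrime q → ∀ φ : Gal, A.IsFrobeniusAt φ q →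
      LinearMap.trace (ResidueField 𝒪) ρbar.V (ρbar.ρ φ) ≠ 0)
    (ρ : GaloisRepAdic R) {ι : ResidueField 𝒪 →+* ResidueField R}
    (hι : ∀ r, ι (residue 𝒪 r) = residue R (algebraMap 𝒪 R r))
    (he : ρ.residual.IsEquiv (ρbar.baseChangeAlong ι)) : ρ.IsUnramifiedAt q := by
  obtain ⟨N, hN, hl, ⟨e⟩⟩ := exists_isLift_of_residual_isEquiv hR ρ hι he
  intro A hA σ hσ
  obtain ⟨φ, hφ⟩ := Frobenius.exists_isFrobeniusAt hq hA
  have hlift : ∀ g, (N g).map (hR.toK : R →+* ResidueField 𝒪) = barMatrix ρbar g :=
    fun g => DFunLike.congr_fun hl g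
  have hmem : ∀ z : 𝒪, z ∈ maximalIdeal 𝒪 → algebraMap 𝒪 R z ∈ maximalIdeal R := fun z hz hu =>
    hz (hR.isLocalHom.map_nonunit _ hu)
  have h1 : N σ = 1 := by
    refine eq_one_of_inertia (by simpa using hmem _ hp) hq hqp (by simpa using hmem _ hq1)
      (by have := h2.map (algebraMap 𝒪 R); rwa [map_ofNat] at this) hA hφ hN (fun τ hτ i j => ?_) ?_ hσ
    · rw [← hR.toK_eq_zero, Matrix.sub_apply, map_sub, sub_eq_zero]
      have e1 : barMatrix ρbar τ = 1 := by
        rw [barMatrix, repMatrix_apply, hunr A hA τ hτ, LinearMap.toMatrix_one]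
      have e2 := congrFun (congrFun ((hlift τ).trans e1) i) j
      refine e2.trans ?_
      rw [Matrix.one_apply, Matrix.one_apply]
      split <;> simp
    · rw [hR.isUnit_iff]
      intro h0
      refine htr A hA φ hφ ?_
      rw [LinearMap.trace_eq_matrix_trace _ (residualBasis ρbar),
        show LinearMap.toMatrix (residualBasis ρbar) (residualBasis ρbar) (ρbar.ρ φ) =
          barMatrix ρbar φ from rfl, ← hlift φ, ← h0, Matrix.trace_fin_two, Matrix.trace_fin_two,
        map_add]
      rfl
  refine LinearMap.ext fun v => ?_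
  obtain ⟨x, rfl⟩ := e.symm.toLinearEquiv.surjective v
  rw [← e.symm.map_apply]
  show e.symm.toLinearEquiv (Matrix.mulVec (N σ) x) = _
  erw [h1, Matrix.one_mulVec]
  rfl

end FLTAgent.RT.Main
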