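import Fermat.Agent.RT.Main.Stage
import Fermat.Agent.RT.Main.ActDropped
import Fermat.Agent.RT.Main.AutoUnram
import Fermat.Agent.LevelDrop.Inputs

/-!
# The deformation rings act on the parts

The inputs of the patching argument, and the action of the deformation rings on the parts of the
levels built from them.
-/

set_option autoImplicit false
set_option linter.unusedSectionVars false

noncomputable section

open IsLocalRing Matrix Polynomial WeierstrassCurve FLTAgent.Deformation FLTAgent.GalRep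

open scoped Pointwise

namespace FLTAgent.RT.Main

local notation "Γℚ" => AlgebraicClosure ℚ ≃ₐ[ℚ] AlgebraicClosure ℚ

/-- Frobenius elements at an unramified prime all have the same trace. -/
theorem trace_eq_of_isFrobeniusAt {k : Type} [Field k] (ρbar : ResidualGaloisRep k) {q : ℕ}
    (hq : q.Prime) (hunr : ρbar.IsUnramifiedAt q) {A B : ValuationSubring (AlgebraicClosure ℚ)}
    (hA : A.LiesOverPrime q) (hB : B.LiesOverPrime q) {σ τ : Γℚ} (hσ : A.IsFrobeniusAt σ q)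
    (hτ : B.IsFrobeniusAt τ q) :
    LinearMap.trace k ρbar.V (ρbar.ρ σ) = LinearMap.trace k ρbar.V (ρbar.ρ τ) := by
  obtain ⟨g, rfl⟩ := Frobenius.exists_smul_eq hq hA hB
  have h1 := hunr (g • A) hB _ (Frobenius.inv_mul_mem_inertiaSubgroupIn hq.pos
    (Frobenius.isFrobeniusAt_conj hq.pos hσ g) hτ)
  have h2 : ρbar.ρ τ = ρbar.ρ (g * σ * g⁻¹) := by
    rw [show τ = g * σ * g⁻¹ * ((g * σ * g⁻¹)⁻¹ * τ) by rw [mul_inv_cancel_left], map_mul, h1,
      mul_one]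
  rw [h2, map_mul, LinearMap.trace_mul_comm, ← map_mul, ← mul_assoc, inv_mul_cancel, one_mul]

variable (𝒪 : Type) [CommRing 𝒪] [IsDomain 𝒪] [IsDiscreteValuationRing 𝒪]
  [IsAdicComplete (maximalIdeal 𝒪) 𝒪] [Finite (ResidueField 𝒪)]

/-- Inertia is unipotent at a prime dividing the level exactly. -/
def UnipotentAtExact (p : ℕ) : Prop :=
  ∀ {N : ℕ} [NeZero N] {S : Finset ℕ}, p ∈ S → (∀ q : ℕ, q.Prime → q ∣ N → q ∈ S) →
    ∀ {θ : CuspForm.heckeAlgebra N 2 (↑S : Set ℕ) →+* ResidueField 𝒪} {T : Type} [CommRing T]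
      [IsLocalRing T] [IsNoetherianRing T] [IsAdicComplete (maximalIdeal T) T] [Algebra 𝒪 T]
      [IsLocalHom (algebraMap 𝒪 T)] [Module.Finite 𝒪 T] [Module.Free 𝒪 T]
      (H : CuspForm.HeckeGaloisRepDatum N (↑S : Set ℕ) 𝒪 θ T) (q : ℕ),
      q.Prime → q ≠ p → q ∣ N → ¬ q ^ 2 ∣ N → H.ρ.IsUnipotentOnInertiaAt q

variable {𝒪} [CharZero 𝒪] {W : WeierstrassCurve ℤ} {p : ℕ} [Fact p.Prime] {loc : PCond}
  {aux : Finset ℕ} (F : Frame 𝒪 W p loc aux)

/-- The maximal Hecke representations at levels with the power of `p` of `N₀` satisfy the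
condition at `p`. -/
def LocMax (N₀ : ℕ) : Prop :=
  ∀ {N : ℕ} [NeZero N] {S : Finset ℕ} (b : ℕ → 𝒪), (∀ q : ℕ, q.Prime → q ∣ N → q ∈ S) → p ∈ S →
    (p ∣ N ↔ p ∣ N₀) → ¬ p ^ 2 ∣ N → ∀ H : MaxDatum N S 𝒪 b F.rb, loc H.H.ρ

/-- A base level: squarefree, with primes outside the family and away from `Loc`, and a non-zero
part. -/
structure Base (N₀ : ℕ) [NeZero N₀] : Prop where
  sq : Squarefree N₀
  mem : ∀ q : ℕ, q.Prime → q ∣ N₀ → q ∈ excSet W p aux
  notMem : ∀ i : F.Loc, ¬ i.1 ∣ N₀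
  nuThree : p ≠ 3 ∨ ModularCurve.nuThree N₀ = 0
  part : cohPart trivChar (one_dvd N₀) (prime_famPrime (W := W) (p := p) (aux := aux))
    (famCoeff 𝒪) ≠ ⊥

/-- The inputs from the geometry of modular curves. -/
structure Inputs (N₀ : ℕ) : Prop where
  locMax : LocMax F N₀
  unip : UnipotentAtExact 𝒪 p
  special : LevelDrop.NewformSpecialCharpoly

include F in
/-- Scalars with the residual traces at the primes where `E[p]` is unramified. -/
theorem exists_resCoeff :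
    ∃ b : ℕ → 𝒪, (∀ ℓ, ℓ ∉ badSet W p → b ℓ = (W.apOfModel ℓ : 𝒪)) ∧
      ∀ ℓ : ℕ, ℓ.Prime → ℓ ∉ F.minS → ∀ A : ValuationSubring (AlgebraicClosure ℚ),
        A.LiesOverPrime ℓ → ∀ σ : Γℚ, A.IsFrobeniusAt σ ℓ →
          LinearMap.trace (ResidueField 𝒪) _ (F.rb.ρ σ) = residue 𝒪 (b ℓ) := by
  classical
  have h : ∀ ℓ : ℕ, ∃ c : 𝒪, (ℓ ∉ badSet W p → c = (W.apOfModel ℓ : 𝒪)) ∧
      (ℓ.Prime → ℓ ∉ F.minS → ∀ A : ValuationSubring (AlgebraicClosure ℚ), A.LiesOverPrime ℓ →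
        ∀ σ : Γℚ, A.IsFrobeniusAt σ ℓ →
          LinearMap.trace (ResidueField 𝒪) _ (F.rb.ρ σ) = residue 𝒪 c) := by
    intro ℓ
    by_cases hb : ℓ ∈ badSet W p
    · have hℓ := Frame.prime_of_mem_badSet hb
      obtain ⟨B, τ, hB, hτ⟩ := Frobenius.exists_liesOverPrime_isFrobeniusAt hℓ
      obtain ⟨c, hc⟩ := residue_surjective (LinearMap.trace (ResidueField 𝒪) _ (F.rb.ρ τ))
      refine ⟨c, fun h => absurd hb h, fun _ hm A hA σ hσ => ?_⟩
      have hℓp : ℓ ≠ p := fun e => hm (e ▸ mem_minSet_self p F.disc_ne F.mem_p)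
      have hu : F.rb.IsUnramifiedAt ℓ := by
        by_contra hu
        exact hm ((mem_minSet_iff p F.disc_ne F.mem_p hℓ hℓp).mpr hu)
      rw [hc, trace_eq_of_isFrobeniusAt F.rb hℓ hu hA hB hσ hτ]
    · refine ⟨W.apOfModel ℓ, fun _ => rfl, fun hℓ _ A hA σ hσ => ?_⟩
      obtain ⟨hgood, hℓp⟩ := F.good_of_notMem hℓ hb
      exact trace_rbar_frobenius p F.disc_ne F.mem_p hℓ hgood hℓp hA hσ
  choose b hb hb' using h
  exact ⟨b, hb, hb'⟩

/-- **The deformation ring of `S` acts on a part** of a level with primes in `S` and `aux`. -/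
theorem exists_act {N₀ : ℕ} (hI : Inputs F N₀) {M N : ℕ} [NeZero N] {D : Type} [CommGroup D]
    [Fintype D] [Fact (Odd (Nat.card D))] {χ : (ZMod M)ˣ →* D} (hMN : M ∣ N)
    {a' : Fam W p aux → 𝒪} (hne : NonEis famPrime a') (hsq : Squarefree M)
    (hex : ∀ q : ℕ, q.Prime → q ∣ M → ¬ q ^ 2 ∣ N)
    [Nontrivial (cohPart χ hMN (prime_famPrime (W := W) (p := p) (aux := aux)) a')]
    {N' : ℕ} [NeZero N'] (hN' : N' = N * M) {S : Finset ℕ} (hmin : F.minS ⊆ S)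
    (Dat : F.DefData S) (hS : ∀ q : ℕ, q.Prime → q ∣ N' → q ∈ S ∪ aux)
    (hpN : p ∣ N' ↔ p ∣ N₀) (hp2 : ¬ p ^ 2 ∣ N')
    (hbad : ∀ q ∈ badSet W p, q ≠ p → ¬ q ^ 2 ∣ N')
    (ha' : ∀ i : Fam W p aux, famPrime i ∉ S ∪ aux → a' i = famCoeff 𝒪 i) :
    ∃ (Θ : awayHecke N' →+* Module.End 𝒪
        (cohPart χ hMN (prime_famPrime (W := W) (p := p) (aux := aux)) a'))
      (φ : Dat.R →ₐ[𝒪] Module.End 𝒪
        (cohPart χ hMN (prime_famPrime (W := W) (p := p) (aux := aux)) a')),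
      Sys.IsFrobCompat Dat (S ∪ aux) φ ∧ (∀ r s, Commute (φ r) (φ s)) ∧
      (∀ t, Θ (restrictAway hS t) ∈ φ.range) ∧
      ∀ (ℓ : ℕ) (hℓ : ℓ.Prime) (hℓN : ¬ ℓ ∣ N'), ℓ ∉ S ∪ aux →
        ∀ A : ValuationSubring (AlgebraicClosure ℚ), A.LiesOverPrime ℓ →
          ∀ σ : Γℚ, A.IsFrobeniusAt σ ℓ → φ (Dat.ρ.trace σ) = Θ (awayT N' hℓ hℓN) := by
  obtain ⟨b, hb, hb'⟩ := exists_resCoeff F
  have hpS : p ∈ S ∪ aux :=
    Finset.mem_union_left _ (hmin (mem_minSet_self p F.disc_ne F.mem_p))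
  refine exists_act_dropped (F.type.isCond S _) Dat hne hsq hex hN' hS hpS F.ne_two F.mem_p
    F.absIrr b (badSet W p) (fun ℓ hℓ _ hℓS hℓb => ?_) (fun ℓ hℓ _ hℓS _ A hA σ hσ =>
      hb' ℓ hℓ (fun h => hℓS (Finset.mem_union_left _ (hmin h))) A hA σ hσ) fun H => ?_
  · refine ⟨⟨ℓ, hℓ, fun h => ?_⟩, rfl, ?_⟩
    · rcases Finset.mem_union.mp h with h | h
      · exact hℓb h
      · exact hℓS (Finset.mem_union_right _ h)
    · rw [hb ℓ hℓb, ha' ⟨ℓ, _⟩ hℓS]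
  · obtain ⟨Mm⟩ := matModel_of_specializations specializationsExist N' p (S ∪ aux) hS
    have hunr : ∀ q : ℕ, q.Prime → q ≠ p → ¬ q ∣ N' → H.H.ρ.IsUnramifiedAt q :=
      fun q hq hqp hqN => isUnramifiedAt_of_matModel Mm frobeniusDense F.mem_p H.H q hq
        fun h => (hq.dvd_mul.mp h).elim hqN
          fun h' => hqp ((Nat.prime_dvd_prime_iff_eq hq Fact.out).mp h')
    refine ⟨⟨detIsCyclotomic_datum Mm frobeniusDense F.mem_p H.H, hI.locMax b hS hpS hpN hp2 H,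
      fun q hq hqS => ?_⟩, fun q hqT hq hqp => ?_⟩
    · have hqp : q ≠ p := fun h => hqS (h ▸ hmin (mem_minSet_self p F.disc_ne F.mem_p))
      by_cases hqa : q ∈ aux
      · obtain ⟨-, hgood, -, hq1, hqt⟩ := F.aux_ok q hqa
        refine isUnramifiedAt_of_residual ⟨inferInstance, H.H.residue_surjective⟩ F.mem_p hq hqp
          hq1 (isUnit_two F.mem_p F.ne_two)
          (isUnramifiedAt_rbar_of_good p F.disc_ne F.mem_p hq hgood hqp)
          (fun A hA φ hφ h0 => hqt ?_) H.H.ρ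
          (ι := ResidueField.map (algebraMap 𝒪 H.T)) (fun r => rfl) H.residual
        rw [trace_rbar_frobenius p F.disc_ne F.mem_p hq hgood hqp hA hφ,
          ← resHom_intCast F.mem_p, map_eq_zero, ZMod.intCast_zmod_eq_zero_iff_dvd] at h0
        exact h0
      · exact hunr q hq hqp fun h => (Finset.mem_union.mp (hS q hq h)).elim hqS hqa
    · by_cases hqN : q ∣ N'
      · exact hI.unip hpS hS H.H q hq hqp hqN (hbad q hqT hqp)
      · exact isUnipotentOnInertiaAt_of_isUnramifiedAt (hunr q hq hqp hqN)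

end FLTAgent.RT.Main
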