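import Fermat.Agent.RT.Setting.Sys
import Fermat.Agent.RT.Sys.TWLevel
import Fermat.Agent.Deformation.Residual

/-!
# The system at a set of Taylor–Wiles primes

At primes `q ≡ 1` modulo `p` with distinct residual Frobenius eigenvalues one of them, lifted,
replaces the coefficient of the curve.
-/

set_option autoImplicit false
set_option linter.unusedSectionVars false

noncomputable section

open IsLocalRing Polynomial WeierstrassCurve FLTAgent.Deformation

namespace FLTAgent.RT.Main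

variable {O : Type} [CommRing O] [IsLocalRing O] {W : WeierstrassCurve ℤ} (hΔ : W.Δ ≠ 0) (p : ℕ)
  [Fact p.Prime] (hp : (p : O) ∈ maximalIdeal O)

/-- The chosen root at one Taylor–Wiles prime. -/
theorem exists_root {q : ℕ} (hq : q.Prime) (hgood : W.IsGoodPrimeFor q) (hdvd : p ∣ q - 1)
    (hsplit : ∀ (P : ValuationSubring (AlgebraicClosure ℚ)), P.LiesOverPrime q →
      ∀ φ : Gal, P.IsFrobeniusAt φ q → ∃ α β : ResidueField O, α ≠ β ∧
        (barMatrix (rbar p hΔ hp) φ).charpoly = (X - C α) * (X - C β)) :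
    (q : O) - 1 ∈ maximalIdeal O ∧ ∃ α β : O, (W.apOfModel q : O) - (α + β) ∈ maximalIdeal O ∧
      α * β - 1 ∈ maximalIdeal O ∧ IsUnit (α - β) := by
  have hpp : p.Prime := Fact.out
  have hqp : q ≠ p := fun h => by
    have h1 : p ∣ 1 := by
      have := Nat.dvd_sub (show p ∣ q from h ▸ dvd_rfl) hdvd
      rwa [Nat.sub_sub_self hq.one_lt.le] at this
    exact hpp.one_lt.ne' (Nat.dvd_one.mp h1)
  have hq1 : (q : O) - 1 ∈ maximalIdeal O := by
    obtain ⟨c, hc⟩ := hdvd
    rw [show (q : O) - 1 = ((q - 1 : ℕ) : O) by rw [Nat.cast_sub hq.one_lt.le, Nat.cast_one], hc,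
      Nat.cast_mul]
    exact Ideal.mul_mem_right _ _ hp
  refine ⟨hq1, ?_⟩
  obtain ⟨P, φ, hP, hφ⟩ := Frobenius.exists_liesOverPrime_isFrobeniusAt hq
  obtain ⟨α, β, hne, hc⟩ := hsplit P hP φ hφ
  have h := charpoly_rbar_frobenius p hΔ hp hq hgood hqp hP hφ
  rw [← LinearMap.charpoly_toMatrix _ (residualBasis (rbar p hΔ hp))] at h
  replace h := hc.symm.trans h
  have hq1' : (q : ResidueField O) = 1 := by
    rw [← residue_eq_zero_iff, map_sub, map_natCast, map_one, sub_eq_zero] at hq1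
    exact hq1
  rw [hq1'] at h
  have h1 := congrArg (fun f => f.coeff 1) h
  have h0 := congrArg (fun f => f.coeff 0) h
  simp [sub_mul, mul_sub, coeff_X, coeff_one, sq] at h0 h1
  obtain ⟨α₀, hα⟩ := residue_surjective α
  obtain ⟨β₀, hβ⟩ := residue_surjective β
  refine ⟨α₀, β₀, ?_, ?_, ?_⟩
  · rw [← residue_eq_zero_iff, map_sub, map_add, hα, hβ, map_intCast]
    linear_combination h1
  · rw [← residue_eq_zero_iff, map_sub, map_mul, hα, hβ, map_one]
    linear_combination h0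
  · rw [← residue_ne_zero_iff_isUnit, map_sub, hα, hβ, sub_ne_zero]
    exact hne

/-- **The system of a set of Taylor–Wiles primes.** -/
theorem exists_twSystem {S₁ : Finset ℕ}
    (hbad : ∀ ℓ : ℕ, ℓ.Prime → ℓ ∉ S₁ → W.IsGoodPrimeFor ℓ) {N : ℕ}
    (hN : ∀ q : ℕ, q.Prime → q ∣ N → q ∈ S₁) (qs : Finset ℕ)
    (hqs : ∀ q ∈ qs, q.Prime ∧ q ∉ S₁ ∧ p ∣ q - 1 ∧
      ∀ (P : ValuationSubring (AlgebraicClosure ℚ)), P.LiesOverPrime q →
        ∀ φ : Gal, P.IsFrobeniusAt φ q → ∃ α β : ResidueField O, α ≠ β ∧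
          (barMatrix (rbar p hΔ hp) φ).charpoly = (X - C α) * (X - C β)) :
    ∃ a' : AwayPrimes S₁ → O, Sys.TWPrimes N (fun i : AwayPrimes S₁ => i.1)
      (fun i => (W.apOfModel i.1 : O)) a' qs := by
  classical
  have h := fun q (hq : q ∈ qs) => exists_root hΔ p hp (hqs q hq).1
    (hbad q (hqs q hq).1 (hqs q hq).2.1) (hqs q hq).2.2.1 (hqs q hq).2.2.2
  choose hq1 α β h1 h2 h3 using h
  refine ⟨fun i => if hi : i.1 ∈ qs then α i.1 hi else (W.apOfModel i.1 : O),
    { prime := fun q hq => (hqs q hq).1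
      not_dvd := fun q hq hd => (hqs q hq).2.1 (hN q (hqs q hq).1 hd)
      of_notMem := fun i hi => dif_neg hi
      index := fun q hq => ⟨⟨q, (hqs q hq).1, (hqs q hq).2.1⟩, β q hq, rfl,
        fun j hj => Subtype.ext hj, hq1 q hq, ?_, ?_, ?_⟩ }⟩
  · simp only [dif_pos hq]; exact h1 q hq
  · simp only [dif_pos hq]; exact h2 q hq
  · simp only [dif_pos hq]; exact h3 q hq

end FLTAgent.RT.Main
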