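import Fermat.Agent.RT.Main.Frame
import Fermat.Agent.RT.Main.TW
import Fermat.Agent.RT.Selmer.Choice
import Fermat.Agent.RT.Tate.MapToBase

/-!
# The stages of the patching argument

For every `n`: Taylor–Wiles primes, the deformation ring of that level, its universal matrices,
normalised coordinates at the primes of `Loc` and a surjection from their power series ring.
-/

set_option autoImplicit false
set_option linter.unusedSectionVars false

noncomputable section

open IsLocalRing Matrix Polynomial WeierstrassCurve FLTAgent.Deformation FLTAgent.TW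
  FLTAgent.RTIrr

namespace FLTAgent.RT.Main

attribute [local instance] dualAlg

variable {𝒪 : Type} [CommRing 𝒪] [IsDomain 𝒪] [IsDiscreteValuationRing 𝒪]
  [IsAdicComplete (maximalIdeal 𝒪) 𝒪] [Finite (ResidueField 𝒪)]
  {W : WeierstrassCurve ℤ} {p : ℕ} [Fact p.Prime] {loc : PCond} {aux : Finset ℕ}
  (F : Frame 𝒪 W p loc aux)

namespace Frame

/-- The deformation rings with ramification in `S`. -/
abbrev DefData (S : Finset ℕ) : Type 1 :=
  GaloisRep.DeformationRingData 𝒪 F.rb (problem 𝒪 p loc S (badSet W p))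

/-- A choice, in every deformation ring, of further elements sent to given variables. -/
abbrev Extra (κ : Type) : Type 1 := ∀ (S : Finset ℕ) (D : F.DefData S), κ → D.R

/-- No further elements. -/
def noExtra : F.Extra Empty := fun _ _ j => j.elim

/-- The deformation ring of the base level. -/
theorem nonempty_defData {S : Finset ℕ} (hS : badSet W p ⊆ S) : Nonempty (F.DefData S) :=
  nonempty_data F.disc_ne F.mem_p F.semistable F.ne_two F.irr F.type F.resid S _
    (F.minS_subset.trans hS)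

end Frame

/-- **One stage**: `r` Taylor–Wiles primes of level `n` with the deformation ring and its
coordinates. -/
structure Stage (Pl : F.Places) {κ : Type} [Finite κ] (u : F.Extra κ) (g r n : ℕ) : Type 1 where
  qv : Fin r → ℕ
  inj : Function.Injective qv
  spec : ∀ j, (qv j).Prime ∧ qv j ∉ excSet W p aux ∧ p ^ (n + 1) ∣ qv j - 1
  a' : Fam W p aux → 𝒪
  tw : Sys.TWPrimes (∏ q ∈ excSet W p aux, q) famPrime (famCoeff 𝒪) a' (Finset.univ.image qv)
  D : F.DefData (badSet W p ∪ Finset.univ.image qv)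
  M : Gal →* Mat D.R
  hM : MatCont M
  equiv : D.ρ.IsEquiv (matRep M hM)
  C : ∀ i, Gen.LocalCoord (Pl.Ds i) M (Pl.P i) (Pl.φ i)
  γ : MvPowerSeries (LocVar F.Loc (κ ⊕ Fin g)) 𝒪 →ₐ[𝒪] D.R
  surj : Function.Surjective γ
  γ_coord : ∀ i k, γ (locCoord i k) = (C i).v k
  γ_extra : ∀ j, γ (MvPowerSeries.X (Sum.inr (Sum.inl j))) = u _ D j

/-- The determinant of a representation in matrices. -/
theorem det_of_isEquiv {A : Type} [CommRing A] [IsLocalRing A] {ρ : GaloisRepAdic A}
    {M : Gal →* Mat A} {hM : MatCont M} (h : ρ.IsEquiv (matRep M hM)) (σ : Gal) :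
    (M σ).det = LinearMap.det (ρ.ρ σ) := by
  obtain ⟨e⟩ := h
  have h1 : (matRep M hM).ρ σ = e.toLinearEquiv.conj (ρ.ρ σ) :=
    LinearMap.ext fun x => by
      rw [LinearEquiv.conj_apply_apply, e.map_apply, LinearEquiv.apply_symm_apply]
  rw [← Tate.det_matRep M hM σ, h1]
  exact LinearMap.det_conj _ _

/-- The trace of a representation in matrices. -/
theorem trace_of_isEquiv {A : Type} [CommRing A] [IsLocalRing A] {ρ : GaloisRepAdic A}
    {M : Gal →* Mat A} {hM : MatCont M} (h : ρ.IsEquiv (matRep M hM)) (σ : Gal) :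
    (M σ).trace = ρ.trace σ := by
  rw [CommAlg.trace_eq_of_isEquiv h, GaloisRepAdic.trace]
  show _ = LinearMap.trace A _ (Matrix.toLin' (M σ))
  rw [Matrix.trace_toLin'_eq]

variable (Pl : F.Places)

/-- **Local coordinates exist.** -/
theorem nonempty_localCoord {S : Finset ℕ} (D : F.DefData S) {M : Gal →* Mat D.R} {hM : MatCont M}
    (hl : IsLift F.rb (isCoeff_deformationRing D) M) (he : D.ρ.IsEquiv (matRep M hM)) (i : F.Loc) :
    Nonempty (Gen.LocalCoord (Pl.Ds i) M (Pl.P i) (Pl.φ i)) := by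
  obtain ⟨hq, -, hqS, hqp, -, hunr⟩ := F.loc_spec i
  refine Gen.exists_localCoord (p := p) (isCoeff_deformationRing D)
    (RTCond.natCast_mem_maximalIdeal F.mem_p (isCoeff_deformationRing D)) hq hqp (Pl.liesOver i)
    (Pl.frob i) (Pl.Ds i) (Pl.q_eq i) (rb := barMatrix F.rb) (Pl.base i)
    (fun σ hσ => F.residualHyp.unramified _ hq hqS _ (Pl.liesOver i) σ hσ) hM hl
    fun n σ a ha => ?_
  rw [det_of_isEquiv he]
  exact D.isOfType.1.1.2 n σ a ha

/-- The trace of inertia at `Loc` is two. -/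
theorem trace_tau_eq_two {S : Finset ℕ} (D : F.DefData S) {M : Gal →* Mat D.R} {hM : MatCont M}
    (he : D.ρ.IsEquiv (matRep M hM)) (i : F.Loc)
    (C : Gen.LocalCoord (Pl.Ds i) M (Pl.P i) (Pl.φ i)) :
    (M C.τ).trace = algebraMap 𝒪 D.R 2 := by
  obtain ⟨hq, hmem, -, hqp, -, -⟩ := F.loc_spec i
  have h := (RTCond.charpoly_eq_sq_iff D.ρ C.τ).mp
    (D.isOfType.2 _ hmem hq hqp (Pl.P i) (Pl.liesOver i) C.τ C.tau_mem)
  rw [map_ofNat, trace_of_isEquiv he, ← sub_eq_zero, GaloisRepAdic.trace,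
    LinearMap.trace_eq_matrix_trace _ (stdBasis D.ρ)]
  exact h.1

/-- The coordinates satisfy the relations with trace two. -/
theorem rel_coord {S : Finset ℕ} (D : F.DefData S) {M : Gal →* Mat D.R} {hM : MatCont M}
    (he : D.ρ.IsEquiv (matRep M hM)) (i : F.Loc)
    (C : Gen.LocalCoord (Pl.Ds i) M (Pl.P i) (Pl.φ i)) : (Pl.Ds i).Rel (2 : 𝒪) C.v :=
  C.rel (trace_tau_eq_two F Pl D he i C)

variable {κ : Type} [Finite κ] (u : F.Extra κ)

/-- **The stages exist**: `g + ∑ h0 + e ≤ r` and a stage for every `n`. -/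
theorem exists_stages (hbound : SelmerAddBound p (barMatrix F.rb))
    (Cp : GaloisRepAdic (DualNumber (ResidueField 𝒪)) → Prop) (e : ℕ)
    (hCp : ∀ P : ValuationSubring (AlgebraicClosure ℚ), P.LiesOverPrime p →
      ∃ S : Submodule (ResidueField 𝒪) (P.decompositionSubgroup ℚ → Mat (ResidueField 𝒪)),
        adB1 (barMatrix F.rb) (P.decompositionSubgroup ℚ) ≤ S ∧
        S ≤ adZ1 (barMatrix F.rb) (P.decompositionSubgroup ℚ) ∧
        Module.Finite (ResidueField 𝒪) S ∧ Module.finrank (ResidueField 𝒪) S + e ≤ 4 ∧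
        ∀ (N : Gal →* Mat (DualNumber (ResidueField 𝒪))) (hN : MatCont N),
          (∀ σ, (N σ).map TrivSqZeroExt.fst = barMatrix F.rb σ) →
          (∀ σ, Matrix.trace (liftCocycle (barMatrix F.rb) N σ) = 0) →
          Cp (matRep N hN) →
          (fun g : P.decompositionSubgroup ℚ => liftCocycle (barMatrix F.rb) N g) ∈ S)
    (hu : ∀ S (D : F.DefData S) j, u S D j ∈ maximalIdeal D.R)
    (hCpu : ∀ S (D : F.DefData S) (f : D.R →ₐ[𝒪] DualNumber (ResidueField 𝒪))
      (hf : IsLocalHom (f : D.R →+* DualNumber (ResidueField 𝒪)))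
      (N : Gal →* Mat (DualNumber (ResidueField 𝒪))) (hN : MatCont N),
      (∀ j, f (u S D j) = 0) →
      (D.ρ.baseChangeAlong (f : D.R →+* DualNumber (ResidueField 𝒪)) hf).IsEquiv (matRep N hN) →
      problem 𝒪 p loc S (badSet W p) (matRep N hN) → Cp (matRep N hN)) :
    ∃ r g : ℕ, g + ∑ i, (Pl.Ds i).h0 + e ≤ r ∧ ∀ n : ℕ, Nonempty (Stage F Pl u g r n) := by
  classical
  have : CharP (ResidueField 𝒪) p := charP_of_injective_ringHom (resHom F.mem_p).injective p
  have hSp : ∀ {i : F.Loc}, i.1.Prime ∧ i.1 ∉ F.minS := fun {i} =>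
    ⟨(F.loc_spec i).1, (F.loc_spec i).2.2.1⟩
  obtain ⟨r, g, hle, hn⟩ := exists_twPrimes_locVar F.ne_two F.residualHyp hbound
    (not_hasStableLine_algebraicClosure F.rb F.absIrr)
    (fun q hq hqp => (mem_minSet_iff p F.disc_ne F.mem_p
      (prime_of_mem_minSet p F.disc_ne F.mem_p q hq) hqp).mp hq)
    Cp e hCp (qs := fun i : F.Loc => i.1) Subtype.val_injective (fun i => hSp) Pl.P Pl.liesOver
    Pl.φ Pl.frob Pl.Ds Pl.base (excSet W p aux)
  refine ⟨r, g, hle, fun n => ?_⟩
  obtain ⟨qv, hinj, hqv, hsplit, hgen⟩ := hn n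
  obtain ⟨a', htw⟩ := exists_twSystem F.disc_ne p F.mem_p (S₁ := excSet W p aux)
    (fun ℓ hℓ h => (F.good_of_notMem hℓ fun h' => h (Finset.mem_union_left _ h')).1)
    (N := ∏ q ∈ excSet W p aux, q)
    (fun q hq hd => by
      obtain ⟨x, hx, hqx⟩ := hq.prime.exists_mem_finset_dvd hd
      rwa [(Nat.prime_dvd_prime_iff_eq hq (F.prime_of_mem_excSet hx)).mp hqx])
    (Finset.univ.image qv) fun q hq => by
      obtain ⟨j, -, rfl⟩ := Finset.mem_image.mp hq
      exact ⟨(hqv j).1, (hqv j).2.1,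
        (dvd_pow_self p n.succ_ne_zero).trans (hqv j).2.2.2.2, fun P hP φ hφ => hsplit j P hP φ hφ⟩
  set S := badSet W p ∪ Finset.univ.image qv
  obtain ⟨D⟩ := F.nonempty_defData (S := S) Finset.subset_union_left
  obtain ⟨M, hM, hl, he⟩ := exists_isLift_of_residual_isEquiv (isCoeff_deformationRing D) D.ρ
    (fun _ => rfl) D.residual_isEquiv
  have hC : ∀ i, Nonempty (Gen.LocalCoord (Pl.Ds i) M (Pl.P i) (Pl.φ i)) := fun i =>
    nonempty_localCoord F Pl D hl he i
  let C := fun i => (hC i).some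
  obtain ⟨γ, hγ, hγC, hγu⟩ := hgen (F.type.isCond S (badSet W p))
    (fun ρ hρ => ⟨hρ.1.1, fun q hq hqm hqs hqQ => hρ.1.2.2 q hq fun h =>
        (Finset.mem_union.mp h).elim
          (fun hb => hqs ⟨q, Finset.mem_sdiff.mpr ⟨hb, hqm⟩⟩ rfl) hqQ,
      fun q hq hqP hqp => hρ.2 q (F.minS_subset hq) hqP hqp⟩)
    D he C (u S D) (hu S D) (hCpu S D)
  exact ⟨⟨qv, hinj, fun j => ⟨(hqv j).1, (hqv j).2.1, (hqv j).2.2.2.2⟩, a', htw, D, M, hM, he, C,
    γ, hγ, hγC, hγu⟩⟩

end FLTAgent.RT.Main
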