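import Fermat.Agent.RT.Main.Act
import Fermat.Agent.RT.Sys.InstBase
import Fermat.Agent.RT.Compat.Main
import Fermat.Agent.RT.Setting.Dict

/-!
# The levels of a stage

For every set `A` of primes of `Loc` the part at the level `N₀ ∏_A q ∏ qv` with diamonds in
`(ℤ/pⁿ) ^ r`, acted on by the deformation ring of the stage.
-/

set_option autoImplicit false
set_option linter.unusedSectionVars false

noncomputable section

open IsLocalRing Matrix Polynomial WeierstrassCurve FLTAgent.Deformation FLTAgent.GalRep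

namespace FLTAgent.RT.Main

attribute [local instance] dualAlg

variable {𝒪 : Type} [CommRing 𝒪] [IsDomain 𝒪] [IsDiscreteValuationRing 𝒪]
  [IsAdicComplete (maximalIdeal 𝒪) 𝒪] [Finite (ResidueField 𝒪)] [CharZero 𝒪]
  {W : WeierstrassCurve ℤ} {p : ℕ} [Fact p.Prime] {loc : PCond} {aux : Finset ℕ}
  (F : Frame 𝒪 W p loc aux) {N₀ : ℕ} [NeZero N₀] (hB : Base F N₀)

namespace Frame

/-- The primes of `Loc`. -/
abbrev qLoc (i : F.Loc) : ℕ := i.1

theorem prime_qLoc (i : F.Loc) : (F.qLoc i).Prime := (F.loc_spec i).1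

/-- The part at the base level with the primes of `A`. -/
abbrev basePart (N₀ : ℕ) [NeZero N₀] (A : Finset F.Loc) :=
  haveI := Sys.neZero_baseN (N₀ := N₀) F.prime_qLoc A
  cohPart trivChar (one_dvd (Sys.baseN N₀ F.qLoc A))
    (prime_famPrime (W := W) (p := p) (aux := aux)) (famCoeff 𝒪)

theorem nonempty_baseBasis (N₀ : ℕ) [NeZero N₀] (A : Finset F.Loc) :
    Nonempty (Σ d : ℕ, Module.Basis (Fin d) 𝒪 (F.basePart N₀ A)) := by
  have := Sys.neZero_baseN (N₀ := N₀) F.prime_qLoc A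
  have := isAddTorsionFree_of_charZero (O := 𝒪)
  have := moduleFree_coh (χ := trivChar) (O := 𝒪) (one_dvd (Sys.baseN N₀ F.qLoc A))
  have := moduleFinite_coh (χ := trivChar) 𝒪 𝒪 (one_dvd (Sys.baseN N₀ F.qLoc A))
  exact ⟨Submodule.basisOfPid
    (Module.finBasis 𝒪 (Coh (Sys.baseN N₀ F.qLoc A) trivChar 𝒪)) (F.basePart N₀ A)⟩

/-- The rank of the part at a base level. -/
def rank (N₀ : ℕ) [NeZero N₀] (A : Finset F.Loc) : ℕ := (F.nonempty_baseBasis N₀ A).some.1

/-- A basis of the part at a base level. -/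
def e₀ (N₀ : ℕ) [NeZero N₀] (A : Finset F.Loc) :
    Module.Basis (Fin (F.rank N₀ A)) 𝒪 (F.basePart N₀ A) :=
  (F.nonempty_baseBasis N₀ A).some.2

end Frame

include F in
theorem famPrime_notMem {q : ℕ} (hq : q ∈ excSet W p aux) (i : Fam W p aux) : famPrime i ≠ q :=
  fun h => i.2.2 (by rw [← h] at hq; exact hq)

include hB

theorem qLoc_mem (i : F.Loc) : F.qLoc i ∈ excSet W p aux :=
  Finset.mem_union_left _ (F.loc_spec i).2.1

theorem mem_excSet_of_dvd_baseN {A : Finset F.Loc} {q : ℕ} (hq : q.Prime)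
    (hd : q ∣ Sys.baseN N₀ F.qLoc A) : q ∈ excSet W p aux := by
  rcases hq.dvd_mul.mp hd with hd | hd
  · exact hB.mem q hq hd
  · obtain ⟨i, -, hqi⟩ := hq.prime.exists_mem_finset_dvd hd
    rw [(Nat.prime_dvd_prime_iff_eq hq (F.prime_qLoc i)).mp hqi]
    exact qLoc_mem F hB i

theorem squarefree_baseN (A : Finset F.Loc) : Squarefree (Sys.baseN N₀ F.qLoc A) :=
  (Nat.squarefree_mul_iff).mpr ⟨Nat.Coprime.prod_right fun i _ =>
      ((F.prime_qLoc i).coprime_iff_not_dvd.mpr (hB.notMem i)).symm, hB.sq,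
    Finset.squarefree_prod_of_pairwise_isCoprime (fun i _ j _ hij =>
      Nat.coprime_iff_isRelPrime.1 ((Nat.coprime_primes (F.prime_qLoc i) (F.prime_qLoc j)).2
        fun e => hij (Subtype.ext e))) fun i _ => (F.prime_qLoc i).squarefree⟩

theorem p_dvd_baseN_iff (A : Finset F.Loc) : p ∣ Sys.baseN N₀ F.qLoc A ↔ p ∣ N₀ := by
  refine ⟨fun h => ?_, fun h => h.trans (dvd_mul_right _ _)⟩
  by_contra h0
  exact Sys.not_dvd_baseN F.prime_qLoc Fact.out h0 (fun i _ => (F.loc_spec i).2.2.2.1) h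

theorem nuThree_baseN (A : Finset F.Loc) :
    p ≠ 3 ∨ ModularCurve.nuThree (Sys.baseN N₀ F.qLoc A) = 0 := by
  refine hB.nuThree.imp id fun h => ?_
  have : NeZero (∏ i ∈ A, F.qLoc i) :=
    ⟨Finset.prod_ne_zero_iff.mpr fun i _ => (F.prime_qLoc i).ne_zero⟩
  exact Sys.nuThree_mul_eq_zero _ h

theorem basePart_ne_bot (A : Finset F.Loc) : F.basePart N₀ A ≠ ⊥ := by
  have := Sys.neZero_baseN (N₀ := N₀) F.prime_qLoc A
  exact cohPart_ne_bot_of_dvd (one_dvd N₀) (dvd_mul_right _ _) prime_famPrime _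
    (fun i hd => absurd (mem_excSet_of_dvd_baseN F hB i.2.1 hd) i.2.2) hB.part

theorem rank_pos (A : Finset F.Loc) : 0 < F.rank N₀ A := by
  rw [Nat.pos_iff_ne_zero]
  intro h
  refine basePart_ne_bot F hB A ((Submodule.eq_bot_iff _).mpr fun x hx => ?_)
  have : IsEmpty (Fin (F.rank N₀ A)) := by rw [h]; infer_instance
  exact congrArg Subtype.val ((F.e₀ N₀ A).repr.injective
    (Subsingleton.elim _ ((F.e₀ N₀ A).repr 0)) : (⟨x, hx⟩ : F.basePart N₀ A) = 0)

omit hB

/-- The groups of the diamonds. -/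
abbrev TWGrp (p r n : ℕ) : Type := Multiplicative (Fin r → ZMod (p ^ n))

variable {F} {Pl : F.Places} {κ : Type} [Finite κ] {u : F.Extra κ} {g r n : ℕ}
  (St : Stage F Pl u g r n)

namespace Stage

theorem qv_prime (j : Fin r) : (St.qv j).Prime := (St.spec j).1

theorem qv_notMem (j : Fin r) : St.qv j ∉ excSet W p aux := (St.spec j).2.1

theorem qv_ne_p (j : Fin r) : St.qv j ≠ p := fun h =>
  St.qv_notMem j (by rw [h]; exact Finset.mem_union_left _ (Finset.mem_insert_self _ _))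

theorem qLoc_ne (i : F.Loc) (j : Fin r) : F.qLoc i ≠ St.qv j := fun h =>
  St.qv_notMem j (h ▸ Finset.mem_union_left _ (F.loc_spec i).2.1)

/-- The ramification allowed at the stage. -/
abbrev ram : Finset ℕ := badSet W p ∪ Finset.univ.image St.qv

include hB

theorem not_dvd_N₀ (j : Fin r) : ¬ St.qv j ∣ N₀ := fun h =>
  St.qv_notMem j (hB.mem _ (St.qv_prime j) h)

theorem twPrimes : Sys.TWPrimes N₀ famPrime (famCoeff 𝒪) St.a' (Finset.univ.image St.qv) where
  prime := St.tw.prime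
  not_dvd q hq := by
    obtain ⟨j, -, rfl⟩ := Finset.mem_image.mp hq
    exact St.not_dvd_N₀ hB j
  of_notMem := St.tw.of_notMem
  index := St.tw.index

omit hB

/-- The character of the diamonds. -/
theorem exists_char (hp : p.Prime) :
    ∃ χ : (ZMod (∏ j, St.qv j))ˣ →* TWGrp p r n, Function.Surjective χ ∧
      ∀ j, ∃ w : (ZMod (St.qv j))ˣ, ∀ v,
        ZMod.unitsMap (Finset.dvd_prod_of_mem St.qv (Finset.mem_univ j)) v = w →
        (∀ i, i ≠ j → ZMod.unitsMap (Finset.dvd_prod_of_mem St.qv (Finset.mem_univ i)) v = 1) →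
          χ v = Sys.twGen j := by
  have := Fact.mk hp
  obtain ⟨χ, gg, hχ, hgg, hval⟩ := Sys.exists_twChar (m := p ^ n) St.qv_prime St.inj
    fun j => (pow_dvd_pow p n.le_succ).trans (St.spec j).2.2
  refine ⟨χ, hχ, fun j => ?_⟩
  obtain ⟨w, hw⟩ := hgg j (Multiplicative.ofAdd 1)
  refine ⟨w, fun v hv hv1 => Multiplicative.toAdd.injective (funext fun i => ?_)⟩
  rw [hval]
  rcases eq_or_ne i j with rfl | hij
  · rw [hv, hw]; simp [Sys.twGen]
  · rw [hv1 i hij, map_one]; simp [Sys.twGen, hij]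

/-- The character of the diamonds. -/
def χ : (ZMod (∏ j, St.qv j))ˣ →* TWGrp p r n := (St.exists_char Fact.out).choose

theorem χ_surjective : Function.Surjective St.χ :=
  (St.exists_char Fact.out).choose_spec.1

theorem exists_χ_eq (j : Fin r) : ∃ w : (ZMod (St.qv j))ˣ, ∀ v,
    ZMod.unitsMap (Finset.dvd_prod_of_mem St.qv (Finset.mem_univ j)) v = w →
    (∀ i, i ≠ j → ZMod.unitsMap (Finset.dvd_prod_of_mem St.qv (Finset.mem_univ i)) v = 1) →
      St.χ v = Sys.twGen j :=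
  (St.exists_char Fact.out).choose_spec.2 j

variable [Fact (Odd (Nat.card (TWGrp p r n)))]

theorem ell_twGrp (hB : Base F N₀) :
    Nat.Coprime 3 (Nat.card (TWGrp p r n)) ∨ ModularCurve.nuThree N₀ = 0 :=
  hB.nuThree.imp (Sys.coprime_three_twGroup p n r) id

/-- The part of the level of `A`. -/
abbrev part (N₀ : ℕ) [NeZero N₀] (A : Finset F.Loc) :=
  haveI := Sys.neZero_stageN (N₀ := N₀) F.prime_qLoc St.qv_prime A
  cohPart St.χ (dvd_mul_left (∏ j, St.qv j) (Sys.baseN N₀ F.qLoc A))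
    (prime_famPrime (W := W) (p := p) (aux := aux)) St.a'

include hB

theorem nontrivial_part (A : Finset F.Loc) : Nontrivial (St.part N₀ A) := by
  have := Sys.neZero_stageN (N₀ := N₀) F.prime_qLoc St.qv_prime A
  have := Sys.neZero_baseN (N₀ := N₀) F.prime_qLoc A
  obtain ⟨-, c, -, -, hc, -⟩ := Sys.exists_twBasis (prime_famPrime (W := W) (p := p) (aux := aux))
    F.prime_qLoc St.qv_prime St.inj (fun i j => St.qLoc_ne i j) (St.twPrimes hB)
    F.nonEis St.χ_surjective p (Sys.isPGroup_twGroup p n r) F.mem_p (ell_twGrp (r := r) (n := n) hB) (F.e₀ N₀) A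
  have : Nontrivial (F.basePart N₀ A) :=
    Submodule.nontrivial_iff_ne_bot.mpr (basePart_ne_bot F hB A)
  exact hc.nontrivial

theorem mem_ram_of_dvd {A : Finset F.Loc} {q : ℕ} (hq : q.Prime)
    (hd : q ∣ Sys.stageN N₀ F.qLoc St.qv A * ∏ j, St.qv j) : q ∈ St.ram ∪ aux := by
  have hqv : q ∣ ∏ j, St.qv j → q ∈ St.ram ∪ aux := fun hd => by
    obtain ⟨j, -, hqj⟩ := hq.prime.exists_mem_finset_dvd hd
    rw [(Nat.prime_dvd_prime_iff_eq hq (St.qv_prime j)).mp hqj]
    exact Finset.mem_union_left _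
      (Finset.mem_union_right _ (Finset.mem_image_of_mem _ (Finset.mem_univ j)))
  rcases hq.dvd_mul.mp hd with hd | hd
  · rcases hq.dvd_mul.mp hd with hd | hd
    · exact (Finset.mem_union.mp (mem_excSet_of_dvd_baseN F hB hq hd)).elim
        (fun h => Finset.mem_union_left _ (Finset.mem_union_left _ h))
        (Finset.mem_union_right _)
    · exact hqv hd
  · exact hqv hd

omit hB in
theorem coprime_qv {q : ℕ} (hq : q.Prime) (hb : q ∈ excSet W p aux) :
    q.Coprime (∏ j, St.qv j) :=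
  Nat.Coprime.prod_right fun j _ =>
    (Nat.coprime_primes hq (St.qv_prime j)).mpr fun h => St.qv_notMem j (h ▸ hb)

theorem not_sq_dvd (A : Finset F.Loc) {q : ℕ} (hq : q.Prime) (hb : q ∈ excSet W p aux) :
    ¬ q ^ 2 ∣ Sys.stageN N₀ F.qLoc St.qv A * ∏ j, St.qv j := fun h => by
  have h1 : q ^ 2 ∣ Sys.baseN N₀ F.qLoc A := by
    have hc := (St.coprime_qv hq hb).pow_left 2
    exact hc.dvd_of_dvd_mul_right (hc.dvd_of_dvd_mul_right h)
  exact hq.not_isUnit (squarefree_baseN F hB A q (by rwa [← pow_two]))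

theorem p_dvd_iff (A : Finset F.Loc) :
    p ∣ Sys.stageN N₀ F.qLoc St.qv A * ∏ j, St.qv j ↔ p ∣ N₀ := by
  have hc := St.coprime_qv (Fact.out : p.Prime)
    (Finset.mem_union_left _ (Finset.mem_insert_self _ _))
  rw [← p_dvd_baseN_iff F hB A]
  exact ⟨fun h => hc.dvd_of_dvd_mul_right (hc.dvd_of_dvd_mul_right h),
    fun h => dvd_mul_of_dvd_left (dvd_mul_of_dvd_left h _) _⟩

/-- The action of a deformation ring of the stage on the part of a level. -/
theorem exists_stageAct (hI : Inputs F N₀) (A : Finset F.Loc) {S : Finset ℕ}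
    (hmin : F.minS ⊆ S) (hS : ∀ q : ℕ, q.Prime →
      q ∣ Sys.stageN N₀ F.qLoc St.qv A * ∏ j, St.qv j → q ∈ S ∪ aux)
    (hQ : Finset.univ.image St.qv ⊆ S) (Dat : F.DefData S) :
    haveI := Sys.neZero_stageN (N₀ := N₀) F.prime_qLoc St.qv_prime A
    ∃ φ : Dat.R →ₐ[𝒪] Module.End 𝒪 (St.part N₀ A), Sys.IsFrobCompat Dat (S ∪ aux) φ := by
  have := Sys.neZero_stageN (N₀ := N₀) F.prime_qLoc St.qv_prime A
  have := St.nontrivial_part hB A
  have : NeZero (Sys.stageN N₀ F.qLoc St.qv A * ∏ j, St.qv j) :=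
    ⟨mul_ne_zero (NeZero.ne _) (Finset.prod_ne_zero_iff.mpr fun j _ => (St.qv_prime j).ne_zero)⟩
  obtain ⟨-, φ, hφ, -⟩ := exists_act F hI (χ := St.χ)
    (dvd_mul_left (∏ j, St.qv j) (Sys.baseN N₀ F.qLoc A)) ((St.twPrimes hB).nonEis F.nonEis)
    (Sys.squarefree_prod_primes St.qv_prime St.inj)
    (Sys.not_sq_dvd_stageN F.prime_qLoc St.qv_prime St.inj (fun i j => St.qLoc_ne i j)
      (St.not_dvd_N₀ hB) A) rfl hmin Dat hS (St.p_dvd_iff hB A)
    (St.not_sq_dvd hB A Fact.out (Finset.mem_union_left _ (Finset.mem_insert_self _ _)))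
    (fun q hq hqp => St.not_sq_dvd hB A (Frame.prime_of_mem_badSet hq)
      (Finset.mem_union_left _ hq))
    fun i hi => St.tw.of_notMem i fun h => hi (Finset.mem_union_left _ (hQ h))
  exact ⟨φ, hφ⟩

theorem minS_subset_ram : F.minS ⊆ St.ram := F.minS_subset.trans Finset.subset_union_left

variable (hI : Inputs F N₀)

include hI

/-- The action of the deformation ring of the stage. -/
def act (A : Finset F.Loc) : St.D.R →ₐ[𝒪] Module.End 𝒪 (St.part N₀ A) :=
  (St.exists_stageAct hB hI A (St.minS_subset_ram hB)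
    (fun _ hq => St.mem_ram_of_dvd hB hq) Finset.subset_union_right St.D).choose

theorem act_compat (A : Finset F.Loc) :
    haveI := Sys.neZero_stageN (N₀ := N₀) F.prime_qLoc St.qv_prime A
    Sys.IsFrobCompat St.D (St.ram ∪ aux) (St.act hB hI A) :=
  (St.exists_stageAct hB hI A (St.minS_subset_ram hB)
    (fun _ hq => St.mem_ram_of_dvd hB hq) Finset.subset_union_right St.D).choose_spec

/-- Away from `A` the action factors through a deformation ring unramified there. -/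
theorem hout (A : Finset F.Loc) (i : F.Loc) (hi : i ∉ A) :
    haveI := Sys.neZero_stageN (N₀ := N₀) F.prime_qLoc St.qv_prime A
    ∃ (𝒟' : ∀ ⦃A : Type⦄ [CommRing A] [IsLocalRing A] [Algebra 𝒪 A], GaloisRepAdic A → Prop)
      (Dat' : GaloisRep.DeformationRingData 𝒪 F.rb 𝒟') (S₁' : Finset ℕ)
      (φ' : Dat'.R →ₐ[𝒪] Module.End 𝒪 (St.part N₀ A)),
      Sys.IsFrobCompat Dat' S₁' φ' ∧ problem 𝒪 p loc St.ram (badSet W p) Dat'.ρ ∧
        F.qLoc i ∉ S₁' ∧ Dat'.ρ.IsUnramifiedAt (F.qLoc i) := by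
  have := Sys.neZero_stageN (N₀ := N₀) F.prime_qLoc St.qv_prime A
  obtain ⟨hq, hqb, hqS, hqp, -, -⟩ := F.loc_spec i
  have hmin : F.minS ⊆ St.ram.erase i.1 := fun x hx =>
    Finset.mem_erase.mpr ⟨fun h => hqS (h ▸ hx), St.minS_subset_ram hB hx⟩
  obtain ⟨D'⟩ := nonempty_data F.disc_ne F.mem_p F.semistable F.ne_two F.irr F.type F.resid
    (St.ram.erase i.1) (badSet W p) hmin
  have hnot : ¬ i.1 ∣ Sys.stageN N₀ F.qLoc St.qv A * ∏ j, St.qv j := fun hd => by
    have hc := St.coprime_qv hq (Finset.mem_union_left _ hqb)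
    exact Sys.not_dvd_baseN F.prime_qLoc hq (hB.notMem i)
      (fun k hk e => hi ((Subtype.ext e : k = i) ▸ hk))
      (hc.dvd_of_dvd_mul_right (hc.dvd_of_dvd_mul_right hd))
  have hQ : Finset.univ.image St.qv ⊆ St.ram.erase i.1 := fun x hx => by
    refine Finset.mem_erase.mpr ⟨?_, Finset.mem_union_right _ hx⟩
    obtain ⟨j, -, rfl⟩ := Finset.mem_image.mp hx
    exact (St.qLoc_ne i j).symm
  have hS : ∀ q : ℕ, q.Prime → q ∣ Sys.stageN N₀ F.qLoc St.qv A * ∏ j, St.qv j →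
      q ∈ St.ram.erase i.1 ∪ aux := fun q hq hd => by
    rcases Finset.mem_union.mp (St.mem_ram_of_dvd hB hq hd) with h | h
    · exact Finset.mem_union_left _ (Finset.mem_erase.mpr ⟨fun e => hnot (e ▸ hd), h⟩)
    · exact Finset.mem_union_right _ h
  obtain ⟨φ', hφ'⟩ := St.exists_stageAct hB hI A hmin hS hQ D'
  refine ⟨_, D', _, φ', hφ', ⟨⟨D'.isOfType.1.1, D'.isOfType.1.2.1, fun q hq hqr =>
    D'.isOfType.1.2.2 q hq fun h => hqr (Finset.mem_of_mem_erase h)⟩, D'.isOfType.2⟩, ?_,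
    D'.isOfType.1.2.2 _ hq (Finset.notMem_erase _ _)⟩
  rw [Finset.mem_union, not_or]
  exact ⟨Finset.notMem_erase _ _, F.notMem_aux_of_mem_badSet hqb⟩

/-- **Part E at the stage.** -/
theorem exists_inertia (A : Finset F.Loc) (j : Fin r) :
    haveI := Sys.neZero_stageN (N₀ := N₀) F.prime_qLoc St.qv_prime A
    ∃ (x : MvPowerSeries (LocVar F.Loc (κ ⊕ Fin g)) 𝒪)
      (P : ValuationSubring (AlgebraicClosure ℚ)) (τ : Gal),
      P.LiesOverPrime (St.qv j) ∧ τ ∈ P.inertiaSubgroupIn ℚ ∧ St.γ x = (St.M τ).trace ∧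
      ∀ B : Sys.DBasis (dvd_mul_left (∏ j, St.qv j) (Sys.baseN N₀ F.qLoc A)) St.χ_surjective
          (St.part N₀ A) (F.rank N₀ A),
        IsNilpotent (B.dia (Sys.twGen j) ^ 2 -
          (St.act hB hI A (St.γ x) ^ 2 - 2) * B.dia (Sys.twGen j) + 1) := by
  have := Sys.neZero_stageN (N₀ := N₀) F.prime_qLoc St.qv_prime A
  have := Sys.neZero_baseN (N₀ := N₀) F.prime_qLoc A
  let B₀ := Sys.twBasis (prime_famPrime (W := W) (p := p) (aux := aux)) F.prime_qLoc St.qv_prime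
    St.inj (fun i j => St.qLoc_ne i j) (St.twPrimes hB) F.nonEis St.χ_surjective p
    (Sys.isPGroup_twGroup p n r) F.mem_p (ell_twGrp (r := r) (n := n) hB) (F.e₀ N₀) A
  obtain ⟨w, hw⟩ := St.exists_χ_eq j
  have hq := St.qv_prime j
  have : Fact (St.qv j).Prime := ⟨hq⟩
  have : NeZero (St.qv j) := ⟨hq.ne_zero⟩
  have : ∀ i, NeZero (St.qv i) := fun i => ⟨(St.qv_prime i).ne_zero⟩
  have : NeZero (∏ i, St.qv i) :=
    ⟨Finset.prod_ne_zero_iff.mpr fun i _ => (St.qv_prime i).ne_zero⟩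
  obtain ⟨P, hP⟩ := Frobenius.exists_liesOverPrime hq
  obtain ⟨τ, hτ, hτw, hτ1⟩ := Compat.exists_inertia_cycloN hP w
  obtain ⟨ψp⟩ := exists_padicHom p 𝒪 F.mem_p
  obtain ⟨i₀, β, hi₀, huniq, -, hadd, hmul, hsep⟩ :=
    St.tw.index (St.qv j) (Finset.mem_image_of_mem _ (Finset.mem_univ j))
  have hgood : ∀ q : ℕ, q.Prime → q ∉ St.ram ∪ aux → W.IsGoodPrimeFor q ∧ q ≠ p :=
    fun q hq h => F.good_of_notMem hq fun h' =>
      h (Finset.mem_union_left _ (Finset.mem_union_left _ h'))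
  obtain ⟨hg₀, hp₀⟩ := F.good_of_notMem hq fun h => St.qv_notMem j (Finset.mem_union_left _ h)
  have hnil := Compat.diamond_quadratic_eq_zero (L := Sys.baseN N₀ F.qLoc A *
      ∏ i ∈ Finset.univ.erase j, St.qv i) (q := St.qv j) F.ne_two F.mem_p ψp
    (F.type.isCond St.ram (badSet W p)) St.D (St.ram ∪ aux)
    (fun q hq hqS B hB φ hφ => ?hdet) (Sys.isPGroup_twGroup p n r)
    ((St.twPrimes hB).nonEis F.nonEis) B₀ (St.act hB hI A) (St.act_compat hB hI A) hq ?hN ?hL
    ?hmod hi₀ huniq hmul hsep hP (fun φ hφ => ?hfrob) hτ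
  case hdet =>
    rw [← LinearMap.det_toMatrix (residualBasis F.rb)]
    exact F.det_barMatrix hq (hgood q hq hqS).2 hB hφ
  case hN =>
    show Sys.baseN N₀ F.qLoc A * (∏ i, St.qv i) = _
    rw [mul_assoc _ _ (St.qv j), Finset.prod_erase_mul _ _ (Finset.mem_univ j)]
  case hL =>
    intro hd
    rcases hq.dvd_mul.mp hd with hd | hd
    · exact St.qv_notMem j (mem_excSet_of_dvd_baseN F hB hq hd)
    · obtain ⟨i, hi, hqi⟩ := hq.prime.exists_mem_finset_dvd hd
      exact Finset.ne_of_mem_erase hi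
        (St.inj ((Nat.prime_dvd_prime_iff_eq hq (St.qv_prime i)).mp hqi).symm)
  case hmod =>
    obtain ⟨c, hc⟩ := (dvd_pow_self p n.succ_ne_zero).trans (St.spec j).2.2
    have h1 := hq.one_lt
    rw [show St.qv j = p * c + 1 by omega, Nat.mul_add_mod,
      Nat.mod_eq_of_lt (Fact.out : p.Prime).one_lt]
  case hfrob =>
    rw [trace_rbar_frobenius p F.disc_ne F.mem_p hq hg₀ hp₀ hP hφ]
    rw [← sub_eq_zero, ← map_sub, residue_eq_zero_iff]
    have e : famPrime i₀ = St.qv j := hi₀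
    rw [← e]
    exact hadd
  rw [hw _ (by rw [Compat.unitsMap_cycloN, hτw]) fun i hij => by
    rw [Compat.unitsMap_cycloN, hτ1 _ ((Nat.coprime_primes (St.qv_prime i) hq).mpr
      (St.inj.ne hij))]] at hnil
  obtain ⟨x, hx⟩ := St.surj (St.M τ).trace
  refine ⟨x, P, τ, hP, hτ, hx, fun B => ?_⟩
  have hd : ∀ δ, B.dia δ = B₀.dia δ := fun δ => LinearMap.ext fun y => Subtype.ext rfl
  rw [hd, hx, trace_of_isEquiv St.equiv]
  exact ⟨1, (pow_one _).trans hnil⟩

/-- The preimage of the trace of inertia. -/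
def dia (A : Finset F.Loc) (j : Fin r) : MvPowerSeries (LocVar F.Loc (κ ⊕ Fin g)) 𝒪 :=
  (St.exists_inertia hB hI A j).choose

/-- **The levels of the stage.** -/
def level :
    Sys.LevelData Pl.Ds F.qLoc (κ ⊕ Fin g) F.rb (F.rank N₀) p famPrime
      (prime_famPrime (W := W) (p := p) (aux := aux)) r (TWGrp p r n) (fun j => Sys.twGen j) :=
  Sys.levelData (prime_famPrime (W := W) (p := p) (aux := aux)) F.prime_qLoc
    Subtype.val_injective St.qv_prime St.inj (fun i j => St.qLoc_ne i j) (St.not_dvd_N₀ hB)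
    (St.twPrimes hB) F.nonEis St.χ_surjective p (Sys.isPGroup_twGroup p n r) F.mem_p
    (ell_twGrp (r := r) (n := n) hB) (F.e₀ N₀) (F.type.isCond St.ram (badSet W p)) St.D St.equiv Pl.liesOver Pl.frob
    St.C Pl.q_eq St.γ St.γ_coord
    (fun i => (trace_tau_eq_two F Pl St.D St.equiv i (St.C i)).trans (map_ofNat _ 2))
    hB.notMem (fun i => (F.loc_spec i).2.2.2.1) hI.special
    (fun A i _ => F.sys.raiseHyp F.disc_ne F.mem_p F.ne_two F.irr
      (famPrime_notMem F (qLoc_mem F hB i)) (nuThree_baseN F hB A))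
    (St.ram ∪ aux)
    (fun i => Finset.mem_union_left _ (Finset.mem_union_left _ (F.loc_spec i).2.1))
    (St.act hB hI) (St.act_compat hB hI) (St.hout hB hI) (fun j => Sys.twGen j)
    (St.dia hB hI) fun A j => (St.exists_inertia hB hI A j).choose_spec.choose_spec.choose_spec.2.2.2

end Stage

end FLTAgent.RT.Main
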