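import Fermat.Agent.RT.Main.Inputs
import Fermat.Agent.RT.AtP.PNew
import Fermat.Agent.RT.Cond.FlatCond

/-!
# The condition at `p` of the maximal data at levels divisible by `p` exactly

If `E[p]` is not flat at `p`, no residual system comes from the level prime to `p`, so the maximal
data are new at `p`, hence strictly ordinary.
-/

set_option autoImplicit false
set_option linter.unusedSectionVars false

noncomputable section

open IsLocalRing Matrix FLTAgent.Deformation FLTAgent.GalRep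

namespace FLTAgent.RT.Main

local notation "Γℚ" => AlgebraicClosure ℚ ≃ₐ[ℚ] AlgebraicClosure ℚ

variable {𝒪 : Type} [CommRing 𝒪] [IsDomain 𝒪] [IsDiscreteValuationRing 𝒪]
  [IsAdicComplete (maximalIdeal 𝒪) 𝒪] [Finite (ResidueField 𝒪)] {N : ℕ} [NeZero N] {S : Finset ℕ}
  {b : ℕ → 𝒪} {ρbar : ResidualGaloisRep (ResidueField 𝒪)}

/-- The residual traces of a maximal datum. -/
theorem trace_eq_residue_of_maxDatum (H : MaxDatum N S 𝒪 b ρbar) {ℓ : ℕ} (hℓ : ℓ.Prime)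
    (hℓN : ¬ ℓ ∣ N) (hℓS : ℓ ∉ (↑S : Set ℕ)) {A : ValuationSubring (AlgebraicClosure ℚ)}
    (hA : A.LiesOverPrime ℓ) {σ : Γℚ} (hσ : A.IsFrobeniusAt σ ℓ) :
    LinearMap.trace (ResidueField 𝒪) ρbar.V (ρbar.ρ σ) = residue 𝒪 (b ℓ) := by
  obtain ⟨e⟩ := H.residual
  apply (ResidueField.map (algebraMap 𝒪 H.T)).injective
  have h1 : H.H.ρ.trace σ = H.H.π (CuspForm.heckeAlgebra.T hℓ hℓN hℓS) :=
    CommAlg.trace_eq_of_charpoly_eq H.H.ρ.finrank_eq (H.H.charpoly_frob ℓ hℓ hℓN hℓS A hA σ hσ)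
  have h2 : LinearMap.trace (ResidueField H.T) _ (H.H.ρ.residual.ρ σ) =
      residue H.T (H.H.ρ.trace σ) := LinearMap.trace_baseChange (H.H.ρ.ρ σ) (ResidueField H.T)
  have h3 : (ρbar.baseChangeAlong (ResidueField.map (algebraMap 𝒪 H.T))).ρ σ =
      e.toLinearEquiv.conj (H.H.ρ.residual.ρ σ) :=
    LinearMap.ext fun x => by
      rw [LinearEquiv.conj_apply_apply, e.map_apply, LinearEquiv.apply_symm_apply]
  rw [← H.θ_T ℓ hℓ hℓN hℓS, ← H.H.residue_π, ← h1, ← h2, ← LinearMap.trace_conj' _ e.toLinearEquiv,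
    ← h3]
  let : Algebra (ResidueField 𝒪) (ResidueField H.T) :=
    (ResidueField.map (algebraMap 𝒪 H.T)).toAlgebra
  exact (LinearMap.trace_baseChange (ρbar.ρ σ) (ResidueField H.T)).symm

/-- A flat maximal datum has flat residual representation. -/
theorem isFlatAt_ofResidual_of_maxDatum {p : ℕ} [Fact p.Prime] (H : MaxDatum N S 𝒪 b ρbar)
    (h : H.H.ρ.IsFlatAt p) : (GaloisRepAdic.ofResidualGaloisRep ρbar).IsFlatAt p := by
  have hA : IsCoeff 𝒪 H.T := ⟨inferInstance, H.H.residue_surjective⟩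
  obtain ⟨M, hM, hl, he⟩ := exists_isLift_of_residual_isEquiv hA H.H.ρ (fun _ => rfl) H.residual
  exact cond_ofResidual (RTCond.isDeformationCondition_flatAt 𝒪 p) hA hM hl
    (RTCond.isFlatAt_congr he h)

variable [CharZero 𝒪] {W : WeierstrassCurve ℤ} {p : ℕ} [Fact p.Prime] {aux : Finset ℕ}

/-- **At levels divisible by `p` exactly the maximal data are strictly ordinary**, provided `E[p]`
is not flat at `p`. -/
theorem locMax_strict (F : Frame 𝒪 W p (strictAt p) aux) {N₀ : ℕ} (hp : p ∣ N₀)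
    (hflat : ¬ (GaloisRepAdic.ofResidualGaloisRep F.rb).IsFlatAt p) : LocMax F N₀ := by
  intro N _ S b hS hpS hiff hp2 H
  obtain ⟨M, rfl⟩ : ∃ M, N = M * p := exists_eq_mul_left_of_dvd (hiff.mpr hp)
  have hpM : ¬ p ∣ M := fun h => hp2 (by rw [pow_two]; exact Nat.mul_dvd_mul_right h p)
  have : NeZero M := ⟨fun h => NeZero.ne (M * p) (by rw [h, zero_mul])⟩
  refine AtP.isStrictOrdinaryAt_of_pNew specializationsExist hpM F.ne_two F.mem_p hS H.H
    (AtP.eq_zero_of_no_residual_old hS H.H.π ?_)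
  rintro ⟨χ, hχ⟩
  let e : ResidueField 𝒪 ≃+* ResidueField H.T :=
    (⟨inferInstance, H.H.residue_surjective⟩ : IsCoeff 𝒪 H.T).resEquiv
  have hSM : ∀ q : ℕ, q.Prime → q ∣ M → q ∈ S := fun q hq h => hS q hq (h.trans (dvd_mul_right M p))
  have hnot : ∀ {ℓ : ℕ}, ℓ.Prime → ¬ ℓ ∣ M → ℓ ∉ (↑S : Set ℕ) → ¬ ℓ ∣ M * p :=
    fun {ℓ} hℓ hℓM hℓS h => (hℓ.dvd_mul.mp h).elim hℓM fun h' =>
      hℓS (by rw [(Nat.prime_dvd_prime_iff_eq hℓ Fact.out).mp h']; exact hpS)
  have : IsLocalHom (algebraMap 𝒪 (ResidueField 𝒪)) :=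
    (isCoeff_residueField (𝒪 := 𝒪)).isLocalHom
  obtain ⟨Mm⟩ := matModel_of_specializations specializationsExist M p S hSM
  obtain ⟨H'⟩ := exists_maxDatum Mm frobeniusDense hSM hpS F.ne_two F.mem_p b F.rb F.absIrr ∅
    (fun ℓ hℓ hℓM hℓS _ _ A hA σ hσ => trace_eq_residue_of_maxDatum H hℓ
      (hnot hℓ hℓM hℓS) hℓS hA hσ)
    (ResidueField 𝒪) ((e.symm : ResidueField H.T →+* ResidueField 𝒪).comp χ)
    (fun ℓ hℓ hℓM hℓS => by
      have h : (e.symm : ResidueField H.T →+* ResidueField 𝒪)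
          (χ (CuspForm.heckeAlgebra.T hℓ hℓM hℓS)) = residue 𝒪 (b ℓ) := by
        rw [hχ ℓ hℓ (hnot hℓ hℓM hℓS) hℓM hℓS, H.H.residue_π, H.θ_T]
        exact e.symm_apply_apply (residue 𝒪 (b ℓ))
      rw [RingHom.comp_apply, h, ResidueField.algebraMap_eq, sub_self]
      exact zero_mem _)
  exact hflat (isFlatAt_ofResidual_of_maxDatum H'
    (FlatModel.isFlatAt_of_specializations specializationsExist hpM hSM F.mem_p H'.H))

end FLTAgent.RT.Main
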