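import Fermat.Agent.RT.Main.Stage

/-!
# The problem with no condition at `p`

No condition at `p` gives deformation rings mapping onto those of every condition at `p`; local
coordinates push forward along these maps.
-/

set_option autoImplicit false
set_option linter.unusedSectionVars false

noncomputable section

open IsLocalRing Matrix WeierstrassCurve FLTAgent.Deformation


namespace FLTAgent.RT.Main

/-- No condition at `p`. -/
abbrev freeAt : PCond := fun _A _ _ _ => True

variable {𝒪 : Type} [CommRing 𝒪] [IsDomain 𝒪] [IsDiscreteValuationRing 𝒪]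
  [IsAdicComplete (maximalIdeal 𝒪) 𝒪] [Finite (ResidueField 𝒪)] {p : ℕ} [Fact p.Prime]

/-- No condition at `p` gives deformation problems. -/
theorem isLocalType_free (hp : (p : 𝒪) ∈ maximalIdeal 𝒪) : IsLocalType 𝒪 p freeAt :=
  ⟨fun S T => RTCond.isDeformationCondition_congr
      (RTCond.isDeformationCondition_and (RTCond.isDeformationCondition_detIsCyclotomic hp)
        (RTCond.isDeformationCondition_tame p S T))
      fun _A _ _ _ ρ => by
        simp only [problem, freeAt, RTCond.tameCondition]
        tauto,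
    fun ρbar S T => by
      let := Deformation.dualAlg 𝒪
      exact RTCond.tangentFinite_of_unramified (p := p) hp ρbar S _ fun ρ h => h.1.2.2⟩

variable {W : WeierstrassCurve ℤ} {loc : PCond} {aux : Finset ℕ}

namespace Frame

variable (F : Frame 𝒪 W p loc aux)

include F in
/-- The setting without a condition at `p`. -/
theorem toFree : Frame 𝒪 W p freeAt aux where
  disc_ne := F.disc_ne
  ne_two := F.ne_two
  mem_p := F.mem_p
  semistable := F.semistable
  irr := F.irr
  quad := F.quad
  type := isLocalType_free F.mem_p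
  resid := trivial
  aux_ok := F.aux_ok

/-- The deformation rings without a condition at `p`. -/
abbrev FreeData (S : Finset ℕ) : Type 1 :=
  GaloisRep.DeformationRingData 𝒪 F.rb (problem 𝒪 p freeAt S (badSet W p))

theorem nonempty_freeData {S : Finset ℕ} (hS : badSet W p ⊆ S) : Nonempty (F.FreeData S) :=
  F.toFree.nonempty_defData hS

/-- **The universal matrices without a condition push forward to universal matrices.** -/
theorem exists_fromFree {S : Finset ℕ} (D₀ : F.FreeData S) {M₀ : Gal →* Mat D₀.R}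
    {hM₀ : MatCont M₀} (he : D₀.ρ.IsEquiv (matRep M₀ hM₀)) (D : F.DefData S) :
    ∃ π : D₀.R →ₐ[𝒪] D.R, Function.Surjective π ∧
      (∀ σ, π (D₀.ρ.trace σ) = D.ρ.trace σ) ∧
      ∃ hM : MatCont (mapRep (π : D₀.R →+* D.R) M₀),
        D.ρ.IsEquiv (matRep (mapRep (π : D₀.R →+* D.R) M₀) hM) := by
  obtain ⟨M, hM, -, heM⟩ := exists_isLift_of_residual_isEquiv (isCoeff_deformationRing D) D.ρ
    (fun _ => rfl) D.residual_isEquiv
  obtain ⟨π, hπ, htr, w, hw⟩ := Tate.exists_mapToBase (F.type.isCond S _) D₀ D
    ⟨⟨D.isOfType.1.1, trivial, D.isOfType.1.2.2⟩, D.isOfType.2⟩ he heM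
  have hM' : MatCont (mapRep (π : D₀.R →+* D.R) M₀) := hw ▸ hM.conj w
  obtain ⟨e⟩ := heM
  obtain ⟨e'⟩ := (isEquiv_matRep_iff hM hM').mpr ⟨w, hw⟩
  exact ⟨π, hπ, htr, hM', ⟨e.trans e'⟩⟩

end Frame

/-- Local coordinates push forward. -/
def localCoordMap {R R' : Type} [CommRing R] [IsLocalRing R] [Algebra 𝒪 R] [CommRing R']
    [IsLocalRing R'] [Algebra 𝒪 R'] {D : LocalDatum 𝒪} {M : Gal →* Mat R}
    {A : ValuationSubring (AlgebraicClosure ℚ)} {φ : Gal} (C : Gen.LocalCoord D M A φ)
    (π : R →ₐ[𝒪] R') (hπ : Function.Surjective π) :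
    Gen.LocalCoord D (mapRep (π : R →+* R') M) A φ where
  g := Units.map (RingHom.mapMatrix (m := Fin 2) (π : R →+* R')).toMonoidHom C.g
  v k := π (C.v k)
  τ := C.τ
  mem_maximalIdeal k := by
    have := IsLocalHom.of_surjective (π : R →+* R') hπ
    exact fun hu => C.mem_maximalIdeal k (this.map_nonunit _ hu)
  isNorm := C.isNorm.map π
  phi_eq := by
    rw [← mapRep_conjRep, mapRep_apply, C.phi_eq]
    exact D.phiMat_map π C.v
  tau_mem := C.tau_mem
  tau_eq := by
    rw [← mapRep_conjRep, mapRep_apply, C.tau_eq]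
    exact sMat_map π C.v
  gen n σ hσ := by
    obtain ⟨j, hj⟩ := C.gen n σ hσ
    refine ⟨j, ?_⟩
    have := IsLocalHom.of_surjective (π : R →+* R') hπ
    have hle : maximalIdeal R ≤ (maximalIdeal R').comap (π : R →+* R') :=
      fun x hx hu => hx (this.map_nonunit x hu)
    let πn : R ⧸ maximalIdeal R ^ n →+* R' ⧸ maximalIdeal R' ^ n :=
      Ideal.quotientMap _ (π : R →+* R')
        ((Ideal.pow_right_mono hle n).trans (Ideal.le_comap_pow _ n))
    have e : ∀ s, Gen.modPow (mapRep (π : R →+* R') M) n s = (Gen.modPow M n s).map πn := fun s => by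
      ext a b; rfl
    rw [e, e, hj]
    exact map_pow πn.mapMatrix (Gen.modPow M n C.τ) j
  det_phi := by
    rw [← D.phiMat_map π C.v]
    exact ((AlgHom.map_det π (D.phiMat C.v)).symm.trans (congrArg π C.det_phi)).trans (map_natCast π _)
  comm := by
    rw [← D.phiMat_map π C.v, ← sMat_map π C.v]
    have := congrArg (AlgHom.mapMatrix (m := Fin 2) π) C.comm
    simpa only [map_mul, map_pow, AlgHom.mapMatrix_apply] using this
  det_s := by
    rw [← sMat_map π C.v]
    exact ((AlgHom.map_det π (sMat C.v)).symm.trans (congrArg π C.det_s)).trans (map_one π)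

end FLTAgent.RT.Main
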