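import Fermat.Agent.RT.Main.Levels

/-!
# The system of a family of stages

The levels of the stages form a system; once the diamond parameters vanish it acts through any
deformation ring of the base level to which the rings of the stages map compatibly with the traces.
-/

set_option autoImplicit false
set_option linter.unusedSectionVars false

noncomputable section

open IsLocalRing Matrix Polynomial WeierstrassCurve FLTAgent.Deformation FLTAgent.GalRep

namespace FLTAgent.RT.Main

attribute [local instance] dualAlg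

variable {𝒪 : Type} [CommRing 𝒪] [IsDomain 𝒪] [IsDiscreteValuationRing 𝒪]
  [IsAdicComplete (maximalIdeal 𝒪) 𝒪] [Finite (ResidueField 𝒪)] [CharZero 𝒪]
  {W : WeierstrassCurve ℤ} {p : ℕ} [Fact p.Prime] {loc : PCond} {aux : Finset ℕ}
  {F : Frame 𝒪 W p loc aux} {N₀ : ℕ} [NeZero N₀]
  {Pl : F.Places} {κ : Type} [Finite κ] {u : F.Extra κ} {g r : ℕ}

/-- The orders of the groups of diamonds are odd. -/
theorem fact_odd_twGrp (hp2 : p ≠ 2) (n : ℕ) : Fact (Odd (Nat.card (TWGrp p r n))) :=
  ⟨Sys.odd_card_twGroup p n r hp2⟩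

variable (F r) in
include F in
/-- The character of the diamonds in the truncated power series. -/
def twEps (n : ℕ) : TWGrp p r n →* STrunc 𝒪 r n :=
  (Sys.exists_twEps (k := n) F.mem_p n.le_succ).choose

variable (F r) in
theorem twEps_gen (n : ℕ) (j : Fin r) :
    twEps F r n (Sys.twGen j) = 1 + Sys.yVar r n j :=
  (Sys.exists_twEps (k := n) F.mem_p n.le_succ).choose_spec j

variable [∀ n, Fact (Odd (Nat.card (TWGrp p r n)))] (hB : Base F N₀) (hI : Inputs F N₀)
  (St : ∀ n, Stage F Pl u g r n)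

include hB hI

/-- **The system of a family of stages.** -/
def system : System Pl.Ds (κ ⊕ Fin g) r :=
  Sys.buildSystem (fun n => (St n).level hB hI) (twEps F r) (twEps_gen F r) F.mem_p F.prime_qLoc
    Pl.q_eq

theorem system_rank : (system hB hI St).rank = F.rank N₀ := rfl

theorem system_act (n : ℕ) (A : Finset F.Loc) :
    (system hB hI St).act n A = ((St n).level hB hI).act (twEps F r n) A := rfl

/-- The diamond parameters are tied to traces of inertia at the Taylor–Wiles primes. -/
theorem exists_system_dia (n : ℕ) (A : Finset F.Loc) (j : Fin r) :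
    ∃ (P : ValuationSubring (AlgebraicClosure ℚ)) (τ : Gal),
      P.LiesOverPrime ((St n).qv j) ∧ τ ∈ P.inertiaSubgroupIn ℚ ∧
        (St n).γ ((system hB hI St).dia n A j) = ((St n).M τ).trace := by
  obtain ⟨P, τ, h1, h2, h3, -⟩ := ((St n).exists_inertia hB hI A j).choose_spec
  exact ⟨P, τ, h1, h2, h3⟩

/-- **Modulo the diamond parameters the system acts through the base level.** -/
theorem system_act_augT (n : ℕ) (A : Finset F.Loc)
    {𝒟₀ : ∀ ⦃A : Type⦄ [CommRing A] [IsLocalRing A] [Algebra 𝒪 A], GaloisRepAdic A → Prop}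
    {D₀ : GaloisRep.DeformationRingData 𝒪 F.rb 𝒟₀} {S₀ : Finset ℕ}
    (φ₀ : D₀.R →ₐ[𝒪] Module.End 𝒪 (F.basePart N₀ A))
    (hφ₀ : haveI := Sys.neZero_baseN (N₀ := N₀) F.prime_qLoc A
      Sys.IsFrobCompat D₀ S₀ φ₀) (f : (St n).D.R →ₐ[𝒪] D₀.R)
    (hf : ∀ σ, f ((St n).D.ρ.trace σ) = D₀.ρ.trace σ)
    (x : MvPowerSeries (LocVar F.Loc (κ ⊕ Fin g)) 𝒪) :
    ((system hB hI St).act n A x).map (augT r n) =
      (Sys.baseMat (F.e₀ N₀ A) φ₀ (f ((St n).γ x))).map
        (Ideal.Quotient.mk (maximalIdeal 𝒪 ^ n)) := by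
  have := Sys.neZero_stageN (N₀ := N₀) F.prime_qLoc (St n).qv_prime A
  have := Sys.neZero_baseN (N₀ := N₀) F.prime_qLoc A
  have hcs := Sys.twCores_spec (prime_famPrime (W := W) (p := p) (aux := aux)) F.prime_qLoc
    (St n).qv_prime (St n).inj (fun i j => (St n).qLoc_ne i j) ((St n).twPrimes hB) F.nonEis
    (St n).χ_surjective p (Sys.isPGroup_twGroup p n r) F.mem_p (Stage.ell_twGrp hB) (F.e₀ N₀) A
  exact Sys.act_augT_eq_baseMat ((St n).level hB hI) (twEps F r n)
    (Sys.augT_character (twEps_gen F r n)) A (F.e₀ N₀ A) φ₀ f hcs.1 hcs.2.1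
    (fun y => Sys.twCores_intertwine (prime_famPrime (W := W) (p := p) (aux := aux)) F.prime_qLoc
      (St n).qv_prime (St n).inj (fun i j => (St n).qLoc_ne i j) ((St n).twPrimes hB) F.nonEis
      (St n).χ_surjective p (Sys.isPGroup_twGroup p n r) F.mem_p (Stage.ell_twGrp hB) (F.e₀ N₀)
      (F.type.isCond _ _) f hf A _ ((St n).act_compat hB hI A) φ₀ hφ₀ y) x

end FLTAgent.RT.Main
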